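import Fermat.Agent.S41.F1.AB
import Fermat.Agent.S41.F.RepDefs
import Fermat.Agent.S41.IhDefs

/-!
# S41, chapter F1: adapters to the shapes of the other chapters
(`IsIncl`, `IsAdD`, `KerB` of chapter F; `IsAd`, `InKer` of block I) and the packaged maps
`aMap : L × L → L'`, `bMap : L' → L × L`.
-/

set_option autoImplicit false

open CongruenceSubgroup Matrix.SpecialLinearGroup
open scoped MatrixGroups

namespace Fermat.Agent.S41Lib

open Fermat.Agent.ESLib Additive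

theorem isIncl_incl (N q : ℕ) : IsIncl (incl N q) := ⟨fun _ => rfl⟩

theorem isAdD_adD (N q : ℕ) [NeZero q] : IsAdD (adD N q) :=
  ⟨fun _ => rfl, fun _ => rfl, fun γ => q_mul_div γ, fun _ => rfl⟩

theorem kerB_of_bOf_eq_zero {N q : ℕ} [NeZero q] {ι : Gamma0 (N * q) →* Gamma0 N}
    {B : Type*} [AddCommGroup B] (hι : IsDeg ι) (φ' : EP (N * q) B) (h : bOf B hι φ' = 0) :
    KerB ι (φ' : Additive (Gamma0 (N * q)) →+ B) := by
  intro I _ t ht g s η hd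
  rw [← b_spec hι t ht g s η hd φ', h]
  rfl

/-- the pairs `(incl γ, adD γ)` are exactly the pairs with `IsAd q` -/
theorem isAd_incl_adD {N q : ℕ} [NeZero q] (γ : Gamma0 (N * q)) :
    IsAd q (incl N q γ : SL(2, ℤ)) (adD N q γ : SL(2, ℤ)) :=
  ⟨rfl, rfl, q_mul_div γ, rfl⟩

theorem exists_of_isAd {N q : ℕ} [NeZero q] (g g' : Gamma0 N)
    (h : IsAd q (g : SL(2, ℤ)) (g' : SL(2, ℤ))) :
    ∃ γ : Gamma0 (N * q), incl N q γ = g ∧ adD N q γ = g' := by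
  have hq : (q : ℤ) ≠ 0 := by exact_mod_cast NeZero.ne q
  obtain ⟨h00, h01, h10, h11⟩ := h
  obtain ⟨e, he⟩ := dvd_of_Gamma0 g'
  have hmem : (g : SL(2, ℤ)) ∈ Gamma0 (N * q) := by
    apply mem_Gamma0_of_dvd
    refine ⟨e, ?_⟩
    have : (g : SL(2, ℤ)).val 1 0 = q * (g' : SL(2, ℤ)).val 1 0 := h10.symm
    rw [this, he]; push_cast; ring
  refine ⟨⟨(g : SL(2, ℤ)), hmem⟩, rfl, ?_⟩
  apply Gamma0_ext
  rw [adD_val]
  ext i j
  fin_cases i <;> fin_cases j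
  · exact h00.symm
  · exact h01.symm
  · show (g : SL(2, ℤ)).val 1 0 / q = (g' : SL(2, ℤ)).val 1 0
    have : (g : SL(2, ℤ)).val 1 0 = q * (g' : SL(2, ℤ)).val 1 0 := h10.symm
    rw [this, Int.mul_ediv_cancel_left _ hq]
  · exact h11.symm

section Pack

variable {N q : ℕ} [NeZero q] (B : Type*) [AddCommGroup B]

/-- `a (x, y) = x ∘ incl + y ∘ adD` -/
def aMap (h1 : IsDeg (incl N q)) (h2 : IsDeg (adD N q)) : EP N B × EP N B →+ EP (N * q) B :=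
  (aOf B h1).coprod (aOf B h2)

/-- `b φ' = (transfer along incl, transfer along adD)` -/
noncomputable def bMap (h1 : IsDeg (incl N q)) (h2 : IsDeg (adD N q)) :
    EP (N * q) B →+ EP N B × EP N B :=
  (bOf B h1).prod (bOf B h2)

variable {B}

theorem aMap_apply (h1 : IsDeg (incl N q)) (h2 : IsDeg (adD N q)) (x y : EP N B)
    (γ : Gamma0 (N * q)) :
    (aMap B h1 h2 (x, y) : Additive (Gamma0 (N * q)) →+ B) (ofMul γ) =
      (x : Additive (Gamma0 N) →+ B) (ofMul (incl N q γ)) +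
        (y : Additive (Gamma0 N) →+ B) (ofMul (adD N q γ)) := rfl

theorem bMap_apply (h1 : IsDeg (incl N q)) (h2 : IsDeg (adD N q)) (φ' : EP (N * q) B) :
    bMap B h1 h2 φ' = (bOf B h1 φ', bOf B h2 φ') := rfl

/-- **`b ∘ a = [[q + 1, T_q], [T_q, q + 1]]`** -/
theorem bMap_aMap (hq : q.Prime) (hqN : ¬ q ∣ N) (h1 : IsDeg (incl N q)) (h2 : IsDeg (adD N q))
    (x y Tx Ty : EP N B)
    (hx : IsTr N q (x : Additive (Gamma0 N) →+ B) (Tx : Additive (Gamma0 N) →+ B))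
    (hy : IsTr N q (y : Additive (Gamma0 N) →+ B) (Ty : Additive (Gamma0 N) →+ B)) :
    bMap B h1 h2 (aMap B h1 h2 (x, y)) = ((q + 1) • x + Ty, Tx + (q + 1) • y) := by
  have e : aMap B h1 h2 (x, y) = aOf B h1 x + aOf B h2 y := rfl
  rw [bMap_apply, e, map_add, map_add, bOf_aOf_same, bOf_aOf_same,
    bOf_incl_aOf_adD hq hqN h1 h2 y Ty hy, bOf_adD_aOf_incl hq hqN h1 h2 x Tx hx]

/-- `a` commutes with `T_ℓ` -/
theorem aMap_comm {ℓ : ℕ} [NeZero ℓ] (hℓ : ℓ.Prime) (hℓq : ¬ ℓ ∣ q) (h1 : IsDeg (incl N q))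
    (h2 : IsDeg (adD N q)) (x y Tx Ty : EP N B)
    (hx : IsTr N ℓ (x : Additive (Gamma0 N) →+ B) (Tx : Additive (Gamma0 N) →+ B))
    (hy : IsTr N ℓ (y : Additive (Gamma0 N) →+ B) (Ty : Additive (Gamma0 N) →+ B)) :
    IsTr (N * q) ℓ (aMap B h1 h2 (x, y) : Additive (Gamma0 (N * q)) →+ B)
      (aMap B h1 h2 (Tx, Ty) : Additive (Gamma0 (N * q)) →+ B) := by
  intro γ γ' hT
  have e1 := aOf_incl_comm h1 x Tx hx γ γ' hT
  have e2 := aOf_adD_comm hℓ hℓq h2 y Ty hy γ γ' hT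
  show (aOf B h1 Tx : Additive (Gamma0 (N * q)) →+ B) (ofMul γ) +
      (aOf B h2 Ty : Additive (Gamma0 (N * q)) →+ B) (ofMul γ) =
    ∑ z, ((aOf B h1 x : Additive (Gamma0 (N * q)) →+ B) (ofMul (γ' z)) +
      (aOf B h2 y : Additive (Gamma0 (N * q)) →+ B) (ofMul (γ' z)))
  rw [e1, e2, Finset.sum_add_distrib]

end Pack

/-- `a (x, y) ∈ p L'` gives `InKer` of block I -/
theorem inKer_of_aMap {N q p : ℕ} [NeZero q] (h1 : IsDeg (incl N q)) (h2 : IsDeg (adD N q))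
    (x y : EP N ℤ)
    (h : ∀ γ : Gamma0 (N * q), (p : ℤ) ∣
      (aMap ℤ h1 h2 (x, y) : Additive (Gamma0 (N * q)) →+ ℤ) (ofMul γ)) :
    InKer N q p (x : Additive (Gamma0 N) →+ ℤ) (y : Additive (Gamma0 N) →+ ℤ) := by
  intro g g' hgg
  obtain ⟨γ, rfl, rfl⟩ := exists_of_isAd g g' hgg
  exact h γ

end Fermat.Agent.S41Lib
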