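import Mathlib

/-!
# S41, chapter F1: the abstract transfer `Hom(Γ', B) → Hom(Γ, B)` along an injective
homomorphism `ι : Γ' → Γ` of finite index, by hand (right cosets `ι(Γ') t_i`).
-/

set_option autoImplicit false

namespace Fermat.Agent.S41Lib

open Additive

section Abstract

variable {Γ' Γ : Type*} [Group Γ'] [Group Γ] {B : Type*} [AddCommGroup B]

/-- `t` is a complete system of representatives of `ι(Γ') \ Γ` (and `ι` is injective) -/
def IsReps (ι : Γ' →* Γ) {I : Type*} (t : I → Γ) : Prop :=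
  Function.Bijective fun x : Γ' × I => ι x.1 * t x.2

variable {ι : Γ' →* Γ} {I : Type*} {t : I → Γ}

theorem aux_cancel {G : Type*} [Group G] {A C x y k g : G} (h1 : A * k = x * g)
    (h2 : C * k = y * g) : x = A * C⁻¹ * y :=
  calc x = (x * g) * g⁻¹ := by group
    _ = (A * k) * g⁻¹ := by rw [h1]
    _ = A * C⁻¹ * (C * k) * g⁻¹ := by group
    _ = A * C⁻¹ * (y * g) * g⁻¹ := by rw [h2]
    _ = A * C⁻¹ * y := by group

theorem IsReps.unique (ht : IsReps ι t) {a b : Γ'} {i j : I} (h : ι a * t i = ι b * t j) :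
    a = b ∧ i = j := by
  have := ht.1 (a₁ := (a, i)) (a₂ := (b, j)) h
  exact ⟨congrArg Prod.fst this, congrArg Prod.snd this⟩

theorem IsReps.injective (ht : IsReps ι t) [Nonempty I] : Function.Injective ι := by
  intro a b hab
  obtain ⟨i⟩ := ‹Nonempty I›
  exact (ht.unique (i := i) (j := i) (by rw [hab])).1

theorem IsReps.exists_data (ht : IsReps ι t) (g : Γ) :
    ∃ (s : Equiv.Perm I) (η : I → Γ'), ∀ i, t i * g = ι (η i) * t (s i) := by
  choose f hf using fun x : Γ => ht.2 x
  simp only at hf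
  refine ⟨Equiv.ofBijective (fun i => (f (t i * g)).2) ⟨?_, ?_⟩, fun i => (f (t i * g)).1,
    fun i => (hf _).symm⟩
  · intro i j hij
    simp only at hij
    have h1 := hf (t i * g)
    have h2 := hf (t j * g)
    rw [hij] at h1
    have : ι 1 * t i = ι ((f (t i * g)).1 * ((f (t j * g)).1)⁻¹) * t j := by
      rw [map_one, one_mul, map_mul, map_inv]
      exact aux_cancel h1 h2
    exact (ht.unique this).2
  · intro k
    obtain ⟨⟨a, i⟩, hai⟩ := ht.2 (t k * g⁻¹)
    simp only at hai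
    refine ⟨i, ?_⟩
    have : ι (f (t i * g)).1 * t (f (t i * g)).2 = ι a⁻¹ * t k := by
      rw [hf, map_inv, eq_inv_mul_iff_mul_eq, ← mul_assoc, hai]; group
    exact (ht.unique this).2

/-- a criterion for `IsReps` -/
theorem isReps_of (hι : Function.Injective ι) (h1 : ∀ i j a, t i = ι a * t j → i = j)
    (h2 : ∀ g, ∃ i a, g = ι a * t i) : IsReps ι t := by
  constructor
  · rintro ⟨a, i⟩ ⟨b, j⟩ h
    simp only at h
    have hij : i = j := by
      apply h1 i j (a⁻¹ * b)
      rw [map_mul, map_inv, mul_assoc, ← h]; group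
    subst hij
    have := hι (mul_right_cancel h)
    rw [this]
  · intro g
    obtain ⟨i, a, h⟩ := h2 g
    exact ⟨(a, i), h.symm⟩

theorem IsReps.data_unique (ht : IsReps ι t) {g : Γ} {s s' : Equiv.Perm I} {η η' : I → Γ'}
    (h : ∀ i, t i * g = ι (η i) * t (s i)) (h' : ∀ i, t i * g = ι (η' i) * t (s' i)) :
    η = η' ∧ s = s' := by
  refine ⟨funext fun i => (ht.unique ((h i).symm.trans (h' i))).1,
    Equiv.ext fun i => (ht.unique ((h i).symm.trans (h' i))).2⟩

/-- conjugating by a family and a permutation does not change the sum -/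
theorem sum_conj_perm {X Y : Type*} [Fintype X] [Fintype Y] (φ : Additive Γ →+ B) (c : X → Γ)
    (τ : X ≃ Y) (π : Equiv.Perm X) (u : X → Γ) :
    ∑ y, φ (ofMul ((c (τ.symm y))⁻¹ * u (τ.symm y) * c (π (τ.symm y)))) =
      ∑ x, φ (ofMul (u x)) := by
  rw [Equiv.sum_comp τ.symm (fun x => φ (ofMul ((c x)⁻¹ * u x * c (π x))))]
  have : ∀ x, φ (ofMul ((c x)⁻¹ * u x * c (π x))) =
      φ (ofMul (u x)) + (φ (ofMul (c (π x))) - φ (ofMul (c x))) := by
    intro x
    rw [ofMul_mul, ofMul_mul, ofMul_inv, map_add, map_add, map_neg]; abel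
  simp_rw [this]
  rw [Finset.sum_add_distrib, Finset.sum_sub_distrib,
    Equiv.sum_comp π (fun x => φ (ofMul (c x))), sub_self, add_zero]

/-- the sum `∑ φ'(η_i)` does not depend on the system of representatives -/
theorem IsReps.sum_indep {J : Type*} [Fintype I] [Fintype J] {t' : J → Γ} (ht : IsReps ι t)
    (ht' : IsReps ι t') {g : Γ} {s : Equiv.Perm I} {η : I → Γ'}
    (h : ∀ i, t i * g = ι (η i) * t (s i)) {s' : Equiv.Perm J} {η' : J → Γ'}
    (h' : ∀ j, t' j * g = ι (η' j) * t' (s' j)) (φ' : Additive Γ' →+ B) :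
    ∑ i, φ' (ofMul (η i)) = ∑ j, φ' (ofMul (η' j)) := by
  choose f hf using fun x : Γ => ht.2 x
  simp only at hf
  have hτ : Function.Bijective (fun j => (f (t' j)).2) := by
    constructor
    · intro j j' hjj
      simp only at hjj
      have h1 := hf (t' j)
      have h2 := hf (t' j')
      rw [hjj] at h1
      have : ι 1 * t' j = ι ((f (t' j)).1 * ((f (t' j')).1)⁻¹) * t' j' := by
        rw [map_one, one_mul, map_mul, map_inv]
        exact aux_cancel (g := 1) (by rw [h1, mul_one]) (by rw [h2, mul_one])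
      exact (ht'.unique this).2
    · intro i
      obtain ⟨⟨a, j⟩, haj⟩ := ht'.2 (t i)
      simp only at haj
      refine ⟨j, ?_⟩
      have : ι (f (t' j)).1 * t (f (t' j)).2 = ι a⁻¹ * t i := by
        rw [hf, map_inv, eq_inv_mul_iff_mul_eq, haj]
      exact (ht.unique this).2
  set τ : J ≃ I := Equiv.ofBijective _ hτ with hτdef
  set c : J → Γ' := fun j => (f (t' j)).1 with hc
  have hct : ∀ j, t' j = ι (c j) * t (τ j) := fun j => (hf (t' j)).symm
  have key : ∀ j, η (τ j) = (c j)⁻¹ * η' j * c (s' j) := by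
    intro j
    have e : ι (η (τ j)) * t (s (τ j)) = ι ((c j)⁻¹ * η' j * c (s' j)) * t (τ (s' j)) := by
      rw [← h (τ j), map_mul, map_mul, map_inv, mul_assoc, ← hct (s' j), mul_assoc, ← h' j,
        hct j]
      group
    exact (ht.unique e).1
  rw [← Equiv.sum_comp τ (fun i => φ' (ofMul (η i)))]
  simp_rw [key]
  have := sum_conj_perm φ' c (Equiv.refl J) s' η'
  simpa using this

/-- composition of transfer data -/
theorem data_mul {g₁ g₂ : Γ} {s₁ s₂ : Equiv.Perm I} {η₁ η₂ : I → Γ'}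
    (h₁ : ∀ i, t i * g₁ = ι (η₁ i) * t (s₁ i)) (h₂ : ∀ i, t i * g₂ = ι (η₂ i) * t (s₂ i)) :
    ∀ i, t i * (g₁ * g₂) = ι (η₁ i * η₂ (s₁ i)) * t ((s₁.trans s₂) i) := by
  intro i
  rw [← mul_assoc, h₁, mul_assoc, h₂, map_mul, Equiv.trans_apply, mul_assoc]

/-- the transfer of `φ'` along `ι`, computed with the representatives `t` -/
noncomputable def trf [Fintype I] (ht : IsReps ι t) (φ' : Additive Γ' →+ B) : Additive Γ →+ B :=
  AddMonoidHom.mk' (fun g => ∑ i, φ' (ofMul ((ht.exists_data (toMul g)).choose_spec.choose i)))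
    (by
      intro g₁ g₂
      have h₁ := (ht.exists_data (toMul g₁)).choose_spec.choose_spec
      have h₂ := (ht.exists_data (toMul g₂)).choose_spec.choose_spec
      have h₁₂ := (ht.exists_data (toMul (g₁ + g₂))).choose_spec.choose_spec
      rw [toMul_add] at h₁₂
      have := (ht.data_unique h₁₂ (data_mul h₁ h₂)).1
      simp only [toMul_add]
      rw [this]
      simp only [ofMul_mul, map_add]
      rw [Finset.sum_add_distrib]
      congr 1
      exact Equiv.sum_comp (ht.exists_data (toMul g₁)).choose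
        (fun i => φ' (ofMul ((ht.exists_data (toMul g₂)).choose_spec.choose i))))

/-- **the specification of the transfer** (any complete system of representatives) -/
theorem trf_spec [Fintype I] (ht : IsReps ι t) {J : Type*} [Fintype J] {t' : J → Γ}
    (ht' : IsReps ι t') (g : Γ) (s' : Equiv.Perm J) (η' : J → Γ')
    (h' : ∀ j, t' j * g = ι (η' j) * t' (s' j)) (φ' : Additive Γ' →+ B) :
    trf ht φ' (ofMul g) = ∑ j, φ' (ofMul (η' j)) :=
  ht.sum_indep ht' (ht.exists_data g).choose_spec.choose_spec h' φ'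

theorem trf_add [Fintype I] (ht : IsReps ι t) (φ' ψ' : Additive Γ' →+ B) :
    trf ht (φ' + ψ') = trf ht φ' + trf ht ψ' := by
  refine AddMonoidHom.ext fun g => ?_
  obtain ⟨s, η, h⟩ := ht.exists_data (toMul g)
  have e : g = ofMul (toMul g) := rfl
  rw [AddMonoidHom.add_apply, e, trf_spec ht ht _ s η h, trf_spec ht ht _ s η h,
    trf_spec ht ht _ s η h, ← Finset.sum_add_distrib]
  rfl

/-- naturality in the coefficients -/
theorem trf_comp [Fintype I] (ht : IsReps ι t) {C : Type*} [AddCommGroup C] (f : B →+ C)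
    (φ' : Additive Γ' →+ B) : trf ht (f.comp φ') = f.comp (trf ht φ') := by
  refine AddMonoidHom.ext fun g => ?_
  obtain ⟨s, η, h⟩ := ht.exists_data (toMul g)
  have e : g = ofMul (toMul g) := rfl
  rw [AddMonoidHom.comp_apply, e, trf_spec ht ht _ s η h, trf_spec ht ht _ s η h, map_sum]
  rfl

/-- transfer after restriction is multiplication by the index -/
theorem trf_res [Fintype I] (ht : IsReps ι t) (φ : Additive Γ →+ B) :
    trf ht (φ.comp (MonoidHom.toAdditive ι)) = Fintype.card I • φ := by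
  refine AddMonoidHom.ext fun g => ?_
  obtain ⟨s, η, h⟩ := ht.exists_data (toMul g)
  have e : g = ofMul (toMul g) := rfl
  rw [e, trf_spec ht ht _ s η h]
  have h2 : ∀ i, (φ.comp (MonoidHom.toAdditive ι)) (ofMul (η i)) =
      φ (ofMul (((t i)⁻¹)⁻¹ * toMul g * (t (s i))⁻¹)) := by
    intro i
    show φ (ofMul (ι (η i))) = _
    congr 2
    rw [inv_inv, h i]; group
  simp_rw [h2]
  have := sum_conj_perm φ (fun i => (t i)⁻¹) (Equiv.refl I) s (fun _ => toMul g)
  simp only [Equiv.refl_symm, Equiv.refl_apply] at this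
  rw [this]
  simp

/-- a sum over a finite set vanishes as soon as the sums over all closed orbits of a permutation
vanish -/
theorem orbit_sum [Fintype I] (s : Equiv.Perm I) (f : I → B)
    (h : ∀ i, ∀ n, 0 < n → (s ^ n) i = i → ∑ k ∈ Finset.range n, f ((s ^ k) i) = 0) :
    ∑ i, f i = 0 := by
  classical
  have key : ∀ A : Finset I, (∀ i ∈ A, s i ∈ A) → ∑ i ∈ A, f i = 0 := by
    intro A
    induction A using Finset.strongInduction with
    | H A ih =>
      intro hA
      rcases A.eq_empty_or_nonempty with rfl | ⟨i, hi⟩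
      · simp
      set n := Function.minimalPeriod s i with hn
      have hper : i ∈ Function.periodicPts s := by
        refine ⟨orderOf s, orderOf_pos s, ?_⟩
        show s^[orderOf s] i = i
        rw [Equiv.Perm.iterate_eq_pow, pow_orderOf_eq_one]; rfl
      have hn0 : 0 < n := Function.minimalPeriod_pos_of_mem_periodicPts hper
      set O : Finset I := (Finset.range n).image (fun k => (s ^ k) i) with hO
      have hmem : ∀ k : ℕ, (s ^ k) i ∈ A := by
        intro k
        induction k with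
        | zero => simpa using hi
        | succ k ihk => rw [pow_succ', Equiv.Perm.mul_apply]; exact hA _ ihk
      have hOA : O ⊆ A := by
        intro x hx
        obtain ⟨k, -, rfl⟩ := Finset.mem_image.mp hx
        exact hmem k
      have hsn : (s ^ n) i = i := by
        rw [← Equiv.Perm.iterate_eq_pow]; exact Function.isPeriodicPt_minimalPeriod s i
      have hstab : ∀ j ∈ A \ O, s j ∈ A \ O := by
        intro j hj
        rw [Finset.mem_sdiff] at hj ⊢
        refine ⟨hA j hj.1, fun hsj => hj.2 ?_⟩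
        obtain ⟨k, hk, hkj⟩ := Finset.mem_image.mp hsj
        rcases Nat.eq_zero_or_pos k with rfl | hk0
        · refine Finset.mem_image.mpr ⟨n - 1, Finset.mem_range.mpr (by omega), ?_⟩
          apply s.injective
          rw [← Equiv.Perm.mul_apply, ← pow_succ', Nat.sub_add_cancel hn0, hsn, ← hkj]; simp
        · refine Finset.mem_image.mpr ⟨k - 1, Finset.mem_range.mpr
            (by have := Finset.mem_range.mp hk; omega), ?_⟩
          apply s.injective
          rw [← Equiv.Perm.mul_apply, ← pow_succ', Nat.sub_add_cancel hk0, hkj]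
      have hlt : A \ O ⊂ A :=
        Finset.sdiff_ssubset hOA ⟨i, Finset.mem_image.mpr ⟨0, Finset.mem_range.mpr hn0, by simp⟩⟩
      rw [← Finset.sum_sdiff hOA, ih _ hlt hstab, zero_add, hO, Finset.sum_image]
      · exact h i n hn0 hsn
      · intro a ha b hb hab
        simp only [← Equiv.Perm.iterate_eq_pow] at hab
        exact Function.iterate_injOn_Iio_minimalPeriod (f := s) (x := i)
          (Set.mem_Iio.mpr (Finset.mem_range.mp ha)) (Set.mem_Iio.mpr (Finset.mem_range.mp hb)) hab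
  exact key Finset.univ (fun _ _ => Finset.mem_univ _)

theorem data_pow {g : Γ} {s : Equiv.Perm I} {η : I → Γ'}
    (h : ∀ i, t i * g = ι (η i) * t (s i)) (φ' : Additive Γ' →+ B) (i : I) (n : ℕ) :
    ∃ P : Γ', t i * g ^ n = ι P * t ((s ^ n) i) ∧
      φ' (ofMul P) = ∑ k ∈ Finset.range n, φ' (ofMul (η ((s ^ k) i))) := by
  induction n with
  | zero => exact ⟨1, by simp, by simp⟩
  | succ n ih =>
    obtain ⟨P, hP, hφ⟩ := ih
    refine ⟨P * η ((s ^ n) i), ?_, ?_⟩
    · rw [pow_succ, ← mul_assoc, hP, mul_assoc, h, map_mul, mul_assoc, pow_succ',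
        Equiv.Perm.mul_apply]
    · rw [ofMul_mul, map_add, hφ, Finset.sum_range_succ]

/-- the transfer of a homomorphism killing (the preimage of) a set `E` stable under powers and
conjugation kills `E` -/
theorem trf_kills [Fintype I] (ht : IsReps ι t) (E : Set Γ) (hpow : ∀ g ∈ E, ∀ n : ℕ, g ^ n ∈ E)
    (hconj : ∀ g ∈ E, ∀ c : Γ, c * g * c⁻¹ ∈ E) (φ' : Additive Γ' →+ B)
    (hφ' : ∀ γ, ι γ ∈ E → φ' (ofMul γ) = 0) (g : Γ) (hg : g ∈ E) : trf ht φ' (ofMul g) = 0 := by
  obtain ⟨s, η, h⟩ := ht.exists_data g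
  rw [trf_spec ht ht g s η h]
  refine orbit_sum s _ fun i n _ hi => ?_
  obtain ⟨P, hP, hφ⟩ := data_pow h φ' i n
  rw [← hφ]
  apply hφ'
  rw [hi] at hP
  have : ι P = t i * g ^ n * (t i)⁻¹ := by rw [hP]; group
  rw [this]; exact hconj _ (hpow g hg n) _

/-- transport of transfer data through an intertwiner -/
theorem intertwine {G Γ₁' Γ₂' Γ₁ Γ₂ X Y : Type*} [Group G] [Group Γ₁'] [Group Γ₂'] [Group Γ₁]
    [Group Γ₂] (i₁ : Γ₁' →* G) (i₂ : Γ₂' →* G) (j₁ : Γ₁ →* G) (j₂ : Γ₂ →* G) (κ₁ : Γ₁' →* Γ₁)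
    (κ₂ : Γ₂' →* Γ₂) (A A' : G) (hA : ∀ η, A * i₁ η = j₁ (κ₁ η) * A)
    (hA' : ∀ γ, i₂ γ * A' = A' * j₂ (κ₂ γ)) (δ : X → G) (h : Y → G) (c : X → Γ₁) (τ : X ≃ Y)
    (hc : ∀ x, A * δ x * A' = j₁ (c x) * h (τ x)) (γ : Γ₂') (γ' : X → Γ₁') (π : Equiv.Perm X)
    (hd : ∀ x, δ x * i₂ γ = i₁ (γ' x) * δ (π x)) (y : Y) :
    h y * j₂ (κ₂ γ) = j₁ ((c (τ.symm y))⁻¹ * κ₁ (γ' (τ.symm y)) * c (π (τ.symm y))) *
      h ((τ.symm.trans (π.trans τ)) y) := by
  obtain ⟨x, rfl⟩ := τ.surjective y
  simp only [Equiv.symm_apply_apply, Equiv.trans_apply]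
  have e1 : h (τ x) = (j₁ (c x))⁻¹ * (A * δ x * A') := by rw [hc]; group
  rw [map_mul, map_mul, map_inv, mul_assoc, mul_assoc, ← hc (π x), e1]
  calc (j₁ (c x))⁻¹ * (A * δ x * A') * j₂ (κ₂ γ)
      = (j₁ (c x))⁻¹ * (A * δ x * (A' * j₂ (κ₂ γ))) := by group
    _ = (j₁ (c x))⁻¹ * (A * (δ x * i₂ γ) * A') := by rw [← hA']; group
    _ = (j₁ (c x))⁻¹ * ((A * i₁ (γ' x)) * δ (π x) * A') := by rw [hd]; group
    _ = (j₁ (c x))⁻¹ * (j₁ (κ₁ (γ' x)) * (A * δ (π x) * A')) := by rw [hA]; group

end Abstract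

end Fermat.Agent.S41Lib
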