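import Mathlib
import Fermat.Agent.ES.KDefs
import Fermat.Agent.S41.F1.Trf

/-!
# S41, chapter F1: the two degeneracy homomorphisms `incl, adD : Γ₀(N q) → Γ₀(N)`
-/

set_option autoImplicit false

open CongruenceSubgroup Matrix.SpecialLinearGroup
open scoped MatrixGroups

namespace Fermat.Agent.S41Lib

open Fermat.Agent.ESLib Additive
open P2MW.S_ModularForm_heckeT_slash_eq_self_of_mem_Gamma0.ModularForm.HeckeSlashInvariance

/-! ### integral matrices in `GL₂(ℝ)` -/

/-- `A ∈ GL₂(ℝ)` is the integral matrix `M` -/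
def IntVal (A : GL (Fin 2) ℝ) (M : Matrix (Fin 2) (Fin 2) ℤ) : Prop :=
  A.val = M.map (Int.cast : ℤ → ℝ)

theorem IntVal.mul {A A' : GL (Fin 2) ℝ} {M M' : Matrix (Fin 2) (Fin 2) ℤ} (h : IntVal A M)
    (h' : IntVal A' M') : IntVal (A * A') (M * M') := by
  unfold IntVal at *
  rw [Units.val_mul, h, h']
  exact (Matrix.map_mul (f := Int.castRingHom ℝ)).symm

theorem IntVal.ext {A A' : GL (Fin 2) ℝ} {M M' : Matrix (Fin 2) (Fin 2) ℤ} (h : IntVal A M)
    (h' : IntVal A' M') (e : M = M') : A = A' := by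
  subst e
  exact Units.ext (h.trans h'.symm)

theorem IntVal.inj {A A' : GL (Fin 2) ℝ} {M M' : Matrix (Fin 2) (Fin 2) ℤ} (h : IntVal A M)
    (h' : IntVal A' M') (e : A = A') : M = M' := by
  subst e
  have := h.symm.trans h'
  ext i j
  have h2 := congrFun (congrFun this i) j
  simpa using h2

theorem intVal_mapGL (g : SL(2, ℤ)) : IntVal (mapGL ℝ g) g.val := by
  unfold IntVal
  ext i j
  exact mapGL_apply _ i j

theorem intVal_heckeRep_infty {q : ℕ} (h0 : q ≠ 0) :
    IntVal (heckeRep q OnePoint.infty) !![(q : ℤ), 0; 0, 1] := by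
  unfold IntVal
  show (ModularForm.heckeDiagMatrix q).val = _
  rw [ModularForm.val_heckeDiagMatrix h0]
  ext i j
  fin_cases i <;> fin_cases j <;> simp

theorem intVal_heckeRep_coe {q : ℕ} (h0 : q ≠ 0) (j : ZMod q) :
    IntVal (heckeRep q (j : OnePoint (ZMod q))) !![1, (j.val : ℤ); 0, (q : ℤ)] := by
  unfold IntVal
  show (ModularForm.heckeMatrix q j.val).val = _
  rw [ModularForm.val_heckeMatrix h0]
  ext a b
  fin_cases a <;> fin_cases b <;> simp

/-! ### `Γ₀(N)` -/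

theorem dvd_of_Gamma0 {N : ℕ} (γ : Gamma0 N) : (N : ℤ) ∣ (γ : SL(2, ℤ)).val 1 0 :=
  (ZMod.intCast_zmod_eq_zero_iff_dvd _ _).mp (Gamma0_mem.mp γ.2)

theorem mem_Gamma0_of_dvd {N : ℕ} {g : SL(2, ℤ)} (h : (N : ℤ) ∣ g.val 1 0) : g ∈ Gamma0 N :=
  Gamma0_mem.mpr ((ZMod.intCast_zmod_eq_zero_iff_dvd _ _).mpr h)

/-- the element `[[a, b], [c, d]]` of `Γ₀(N)` -/
def lvG (N : ℕ) (a b c d : ℤ) (hdet : a * d - b * c = 1) (hc : (N : ℤ) ∣ c) : Gamma0 N :=
  ⟨⟨!![a, b; c, d], by rw [Matrix.det_fin_two_of]; exact hdet⟩,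
    mem_Gamma0_of_dvd (by simpa using hc)⟩

@[simp] theorem lvG_val (N : ℕ) (a b c d : ℤ) (hdet : a * d - b * c = 1) (hc : (N : ℤ) ∣ c) :
    ((lvG N a b c d hdet hc : Gamma0 N) : SL(2, ℤ)).val = !![a, b; c, d] := rfl

theorem Gamma0_ext {N : ℕ} {γ γ' : Gamma0 N} (h : (γ : SL(2, ℤ)).val = (γ' : SL(2, ℤ)).val) :
    γ = γ' := Subtype.ext (Subtype.ext h)

theorem det_Gamma0 {N : ℕ} (γ : Gamma0 N) :
    (γ : SL(2, ℤ)).val 0 0 * (γ : SL(2, ℤ)).val 1 1 - (γ : SL(2, ℤ)).val 0 1 * (γ : SL(2, ℤ)).val 1 0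
      = 1 := by
  have := (γ : SL(2, ℤ)).2
  rwa [Matrix.det_fin_two] at this

/-- the embedding `Γ₀(N) → GL₂(ℝ)` -/
noncomputable def emb (N : ℕ) : Gamma0 N →* GL (Fin 2) ℝ := (mapGL ℝ).comp (Gamma0 N).subtype

theorem emb_apply (N : ℕ) (γ : Gamma0 N) : emb N γ = mapGL ℝ (γ : SL(2, ℤ)) := rfl

theorem intVal_emb {N : ℕ} (γ : Gamma0 N) : IntVal (emb N γ) (γ : SL(2, ℤ)).val :=
  intVal_mapGL _

theorem emb_injective (N : ℕ) : Function.Injective (emb N) := by
  intro γ γ' h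
  exact Gamma0_ext ((intVal_emb γ).inj (intVal_emb γ') h)

/-- the inclusion `Γ₀(N q) → Γ₀(N)` -/
def incl (N q : ℕ) : Gamma0 (N * q) →* Gamma0 N :=
  Subgroup.inclusion (fun g hg => mem_Gamma0_of_dvd
    ((Dvd.intro (q : ℤ) (by push_cast; rfl)).trans (dvd_of_Gamma0 ⟨g, hg⟩)))

@[simp] theorem incl_val (N q : ℕ) (γ : Gamma0 (N * q)) :
    (incl N q γ : SL(2, ℤ)) = (γ : SL(2, ℤ)) := rfl

theorem q_dvd_of_Gamma0 {N q : ℕ} (γ : Gamma0 (N * q)) : (q : ℤ) ∣ (γ : SL(2, ℤ)).val 1 0 :=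
  (Dvd.intro_left (N : ℤ) (by push_cast; rfl)).trans (dvd_of_Gamma0 γ)

theorem q_mul_div {N q : ℕ} (γ : Gamma0 (N * q)) :
    (q : ℤ) * ((γ : SL(2, ℤ)).val 1 0 / q) = (γ : SL(2, ℤ)).val 1 0 :=
  Int.mul_ediv_cancel' (q_dvd_of_Gamma0 γ)

/-- `[[a, b], [c, d]] ↦ [[a, q b], [c / q, d]]` -/
def adDFun (N q : ℕ) [NeZero q] (γ : Gamma0 (N * q)) : Gamma0 N :=
  lvG N ((γ : SL(2, ℤ)).val 0 0) (q * (γ : SL(2, ℤ)).val 0 1) ((γ : SL(2, ℤ)).val 1 0 / q)
    ((γ : SL(2, ℤ)).val 1 1)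
    (by
      have h1 := det_Gamma0 γ
      have h2 := q_mul_div γ
      linear_combination h1 - (γ : SL(2, ℤ)).val 0 1 * h2)
    (by
      obtain ⟨e, he⟩ := dvd_of_Gamma0 γ
      have hq : (q : ℤ) ≠ 0 := by exact_mod_cast NeZero.ne q
      refine ⟨e, ?_⟩
      rw [he]
      push_cast
      rw [show (N : ℤ) * q * e = q * (N * e) by ring, Int.mul_ediv_cancel_left _ hq])

/-- conjugation by `diag(q, 1)` : `Γ₀(N q) → Γ₀(N)` -/
def adD (N q : ℕ) [NeZero q] : Gamma0 (N * q) →* Gamma0 N :=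
  MonoidHom.mk' (adDFun N q) (by
    intro γ γ'
    have hq : (q : ℤ) ≠ 0 := by exact_mod_cast NeZero.ne q
    have h1 := q_mul_div γ
    have h2 := q_mul_div γ'
    have h3 := q_mul_div (γ * γ')
    apply Gamma0_ext
    rw [Subgroup.coe_mul, Matrix.SpecialLinearGroup.coe_mul]
    simp only [adDFun, lvG_val]
    rw [Subgroup.coe_mul, Matrix.SpecialLinearGroup.coe_mul] at h3 ⊢
    rw [Matrix.mul_apply, Fin.sum_univ_two] at h3
    ext i j
    fin_cases i <;> fin_cases j
    · simp [Matrix.mul_apply, Fin.sum_univ_two]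
      linear_combination (-(γ : SL(2, ℤ)).val 0 1) * h2
    · simp [Matrix.mul_apply, Fin.sum_univ_two]
      ring
    · simp only [Matrix.mul_apply, Fin.sum_univ_two]
      simp
      apply mul_left_cancel₀ hq
      rw [h3]
      linear_combination (-(γ' : SL(2, ℤ)).val 0 0) * h1 - (γ : SL(2, ℤ)).val 1 1 * h2
    · simp [Matrix.mul_apply, Fin.sum_univ_two]
      linear_combination (-(γ' : SL(2, ℤ)).val 0 1) * h1)

theorem adD_val (N q : ℕ) [NeZero q] (γ : Gamma0 (N * q)) :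
    (adD N q γ : SL(2, ℤ)).val = !![(γ : SL(2, ℤ)).val 0 0, q * (γ : SL(2, ℤ)).val 0 1;
      (γ : SL(2, ℤ)).val 1 0 / q, (γ : SL(2, ℤ)).val 1 1] := rfl

/-! ### traces, injectivity, ranges -/

theorem trace_incl (N q : ℕ) (γ : Gamma0 (N * q)) :
    (incl N q γ : SL(2, ℤ)).val.trace = (γ : SL(2, ℤ)).val.trace := rfl

theorem trace_adD (N q : ℕ) [NeZero q] (γ : Gamma0 (N * q)) :
    (adD N q γ : SL(2, ℤ)).val.trace = (γ : SL(2, ℤ)).val.trace := by
  rw [adD_val, Matrix.trace_fin_two, Matrix.trace_fin_two]; rfl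

theorem incl_injective (N q : ℕ) : Function.Injective (incl N q) := by
  intro γ γ' h
  apply Gamma0_ext
  have := congrArg (fun x : Gamma0 N => (x : SL(2, ℤ)).val) h
  exact this

theorem adD_injective (N q : ℕ) [NeZero q] : Function.Injective (adD N q) := by
  intro γ γ' h
  have hq : (q : ℤ) ≠ 0 := by exact_mod_cast NeZero.ne q
  have h0 := congrArg (fun x : Gamma0 N => (x : SL(2, ℤ)).val) h
  simp only [adD_val] at h0
  have e00 := congrFun (congrFun h0 0) 0
  have e01 := congrFun (congrFun h0 0) 1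
  have e10 := congrFun (congrFun h0 1) 0
  have e11 := congrFun (congrFun h0 1) 1
  simp at e00 e01 e10 e11
  apply Gamma0_ext
  ext i j
  fin_cases i <;> fin_cases j
  · exact e00
  · exact e01.resolve_right (NeZero.ne q)
  · show (γ : SL(2, ℤ)).val 1 0 = (γ' : SL(2, ℤ)).val 1 0
    rw [← q_mul_div γ, ← q_mul_div γ', e10]
  · exact e11

theorem exists_incl_eq {N q : ℕ} (hcop : Nat.Coprime N q) (g : Gamma0 N)
    (h : (q : ℤ) ∣ (g : SL(2, ℤ)).val 1 0) : ∃ a, incl N q a = g := by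
  refine ⟨⟨(g : SL(2, ℤ)), mem_Gamma0_of_dvd ?_⟩, rfl⟩
  push_cast
  exact (Nat.isCoprime_iff_coprime.mpr hcop).mul_dvd (dvd_of_Gamma0 g) h

theorem exists_adD_eq {N q : ℕ} [NeZero q] (g : Gamma0 N)
    (h : (q : ℤ) ∣ (g : SL(2, ℤ)).val 0 1) : ∃ a, adD N q a = g := by
  have hq : (q : ℤ) ≠ 0 := by exact_mod_cast NeZero.ne q
  obtain ⟨e, he⟩ := h
  obtain ⟨f, hf⟩ := dvd_of_Gamma0 g
  have hd := det_Gamma0 g
  refine ⟨lvG (N * q) ((g : SL(2, ℤ)).val 0 0) e (q * (g : SL(2, ℤ)).val 1 0)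
    ((g : SL(2, ℤ)).val 1 1) (by rw [he] at hd; linear_combination hd)
    ⟨f, by rw [hf]; push_cast; ring⟩, ?_⟩
  apply Gamma0_ext
  rw [adD_val, lvG_val]
  ext i j
  fin_cases i <;> fin_cases j
  · rfl
  · simp [he]
  · simp only [Fin.mk_one, Fin.isValue, Fin.zero_eta, Matrix.of_apply, Matrix.cons_val', Matrix.cons_val_zero,
      Matrix.cons_val_fin_one, Matrix.cons_val_one]
    exact Int.mul_ediv_cancel_left _ hq
  · rfl

/-! ### the intertwining relations in `GL₂(ℝ)` -/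

theorem D_mul_emb (N q : ℕ) [NeZero q] (γ : Gamma0 (N * q)) :
    heckeRep q OnePoint.infty * emb N (incl N q γ) =
      emb N (adD N q γ) * heckeRep q OnePoint.infty := by
  have h0 : q ≠ 0 := NeZero.ne q
  refine ((intVal_heckeRep_infty h0).mul (intVal_emb _)).ext
    ((intVal_emb _).mul (intVal_heckeRep_infty h0)) ?_
  have h1 := q_mul_div γ
  rw [adD_val, incl_val]
  ext i j
  fin_cases i <;> fin_cases j <;> simp [Matrix.mul_apply, Fin.sum_univ_two]
  · ring
  · linear_combination -h1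

theorem eps_mul_emb (N q : ℕ) [NeZero q] (γ : Gamma0 (N * q)) :
    heckeRep q ((0 : ZMod q) : OnePoint (ZMod q)) * emb N (adD N q γ) =
      emb N (incl N q γ) * heckeRep q ((0 : ZMod q) : OnePoint (ZMod q)) := by
  have h0 : q ≠ 0 := NeZero.ne q
  refine ((intVal_heckeRep_coe h0 0).mul (intVal_emb _)).ext
    ((intVal_emb _).mul (intVal_heckeRep_coe h0 0)) ?_
  have h1 := q_mul_div γ
  rw [adD_val, incl_val]
  ext i j
  fin_cases i <;> fin_cases j <;> simp [Matrix.mul_apply, Fin.sum_univ_two]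
  · ring
  · linear_combination h1
  · ring

/-! ### the representatives -/

section Reps

variable (N q : ℕ) (u v : ℤ) (huv : (q : ℤ) * u - N * v = 1)

/-- `[[u, v], [N, q]]` -/
def gInf : Gamma0 N := lvG N u v N q (by linear_combination huv) (dvd_refl _)

/-- `[[q u, v], [N, 1]]` -/
def sInf : Gamma0 N := lvG N (q * u) v N 1 (by linear_combination huv) (dvd_refl _)

/-- `[[1, j], [0, 1]]` -/
def tG (j : ℤ) : Gamma0 N := lvG N 1 j 0 1 (by ring) (dvd_zero _)

/-- representatives of `Γ₀(N q) \ Γ₀(N)` -/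
def repI (x : OnePoint (ZMod q)) : Gamma0 N :=
  x.elim 1 (fun j => gInf N q u v huv * tG N j.val)

/-- representatives of `adD Γ₀(N q) \ Γ₀(N)` -/
def repA (x : OnePoint (ZMod q)) : Gamma0 N :=
  x.elim (sInf N q u v huv) (fun j => tG N j.val)

/-- `diag(q,1) * repI x = cI x * heckeRep q x` -/
def cI (x : OnePoint (ZMod q)) : Gamma0 N :=
  x.elim 1 (fun _ => sInf N q u v huv)

/-- `diag(1,q) * repA x = cA x * heckeRep q x` -/
def cA (x : OnePoint (ZMod q)) : Gamma0 N :=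
  x.elim (gInf N q u v huv) (fun _ => 1)

theorem D_mul_repI [NeZero q] (x : OnePoint (ZMod q)) :
    heckeRep q OnePoint.infty * emb N (repI N q u v huv x) =
      emb N (cI N q u v huv x) * heckeRep q x := by
  have h0 : q ≠ 0 := NeZero.ne q
  induction x using OnePoint.rec with
  | infty =>
    show heckeRep q OnePoint.infty * emb N 1 = emb N 1 * heckeRep q OnePoint.infty
    rw [map_one, one_mul, mul_one]
  | coe j =>
    refine ((intVal_heckeRep_infty h0).mul (intVal_emb _)).ext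
      ((intVal_emb _).mul (intVal_heckeRep_coe h0 j)) ?_
    show _ * ((gInf N q u v huv * tG N j.val : Gamma0 N) : SL(2, ℤ)).val =
      ((sInf N q u v huv : Gamma0 N) : SL(2, ℤ)).val * _
    rw [Subgroup.coe_mul, Matrix.SpecialLinearGroup.coe_mul]
    simp only [gInf, sInf, tG, lvG_val]
    ext a b
    fin_cases a <;> fin_cases b <;> simp [Matrix.mul_apply, Fin.sum_univ_two] <;> ring

theorem eps_mul_repA [NeZero q] (x : OnePoint (ZMod q)) :
    heckeRep q ((0 : ZMod q) : OnePoint (ZMod q)) * emb N (repA N q u v huv x) =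
      emb N (cA N q u v huv x) * heckeRep q x := by
  have h0 : q ≠ 0 := NeZero.ne q
  induction x using OnePoint.rec with
  | infty =>
    refine ((intVal_heckeRep_coe h0 0).mul (intVal_emb _)).ext
      ((intVal_emb _).mul (intVal_heckeRep_infty h0)) ?_
    show _ * ((sInf N q u v huv : Gamma0 N) : SL(2, ℤ)).val =
      ((gInf N q u v huv : Gamma0 N) : SL(2, ℤ)).val * _
    simp only [gInf, sInf, lvG_val]
    ext a b
    fin_cases a <;> fin_cases b <;> simp [Matrix.mul_apply, Fin.sum_univ_two] <;> ring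
  | coe j =>
    refine ((intVal_heckeRep_coe h0 0).mul (intVal_emb _)).ext
      ((intVal_emb _).mul (intVal_heckeRep_coe h0 j)) ?_
    show _ * ((tG N j.val : Gamma0 N) : SL(2, ℤ)).val = ((1 : Gamma0 N) : SL(2, ℤ)).val * _
    simp only [tG, lvG_val]
    ext a b
    fin_cases a <;> fin_cases b <;> simp [Matrix.mul_apply, Fin.sum_univ_two]

theorem repI_infty : repI N q u v huv OnePoint.infty = 1 := rfl

theorem repI_coe_val (j : ZMod q) : ((repI N q u v huv (j : OnePoint (ZMod q)) : Gamma0 N) :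
    SL(2, ℤ)).val = !![u, u * j.val + v; N, N * j.val + q] := by
  show ((gInf N q u v huv * tG N j.val : Gamma0 N) : SL(2, ℤ)).val = _
  rw [Subgroup.coe_mul, Matrix.SpecialLinearGroup.coe_mul]
  simp only [gInf, tG, lvG_val]
  ext a b
  fin_cases a <;> fin_cases b <;> simp [Matrix.mul_apply, Fin.sum_univ_two]

theorem repA_infty_val : ((repA N q u v huv OnePoint.infty : Gamma0 N) : SL(2, ℤ)).val =
    !![q * u, v; N, 1] := rfl

theorem repA_coe_val (j : ZMod q) : ((repA N q u v huv (j : OnePoint (ZMod q)) : Gamma0 N) :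
    SL(2, ℤ)).val = !![1, (j.val : ℤ); 0, 1] := rfl

end Reps

theorem mul_inv_val {N : ℕ} (g y : Gamma0 N) : ((g * y⁻¹ : Gamma0 N) : SL(2, ℤ)).val =
    !![(g : SL(2, ℤ)).val 0 0 * (y : SL(2, ℤ)).val 1 1 - (g : SL(2, ℤ)).val 0 1 * (y : SL(2, ℤ)).val 1 0,
       (g : SL(2, ℤ)).val 0 1 * (y : SL(2, ℤ)).val 0 0 - (g : SL(2, ℤ)).val 0 0 * (y : SL(2, ℤ)).val 0 1;
       (g : SL(2, ℤ)).val 1 0 * (y : SL(2, ℤ)).val 1 1 - (g : SL(2, ℤ)).val 1 1 * (y : SL(2, ℤ)).val 1 0,
       (g : SL(2, ℤ)).val 1 1 * (y : SL(2, ℤ)).val 0 0 - (g : SL(2, ℤ)).val 1 0 * (y : SL(2, ℤ)).val 0 1] := by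
  rw [Subgroup.coe_mul, Subgroup.coe_inv, Matrix.SpecialLinearGroup.coe_mul,
    Matrix.SpecialLinearGroup.coe_inv, Matrix.adjugate_fin_two]
  ext a b
  fin_cases a <;> fin_cases b <;> simp [Matrix.mul_apply, Fin.sum_univ_two] <;> ring

theorem incl_cross {N q : ℕ} (a : Gamma0 (N * q)) (x y : Gamma0 N) (h : x = incl N q a * y) :
    (q : ℤ) ∣ (x : SL(2, ℤ)).val 1 0 * (y : SL(2, ℤ)).val 1 1 -
      (x : SL(2, ℤ)).val 1 1 * (y : SL(2, ℤ)).val 1 0 := by
  have h1 : incl N q a = x * y⁻¹ := by rw [h]; group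
  have h2 := congrArg (fun z : Gamma0 N => (z : SL(2, ℤ)).val 1 0) h1
  simp only [mul_inv_val, incl_val] at h2
  have h3 := q_dvd_of_Gamma0 a
  rw [h2] at h3
  simpa using h3

theorem exists_incl_mul {N q : ℕ} (hcop : Nat.Coprime N q) (g y : Gamma0 N)
    (h : (q : ℤ) ∣ (g : SL(2, ℤ)).val 1 0 * (y : SL(2, ℤ)).val 1 1 -
      (g : SL(2, ℤ)).val 1 1 * (y : SL(2, ℤ)).val 1 0) : ∃ a, g = incl N q a * y := by
  obtain ⟨a, ha⟩ := exists_incl_eq hcop (g * y⁻¹) (by rw [mul_inv_val]; simpa using h)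
  exact ⟨a, by rw [ha]; group⟩

theorem adD_cross {N q : ℕ} [NeZero q] (a : Gamma0 (N * q)) (x y : Gamma0 N)
    (h : x = adD N q a * y) :
    (q : ℤ) ∣ (x : SL(2, ℤ)).val 0 1 * (y : SL(2, ℤ)).val 0 0 -
      (x : SL(2, ℤ)).val 0 0 * (y : SL(2, ℤ)).val 0 1 := by
  have h1 : adD N q a = x * y⁻¹ := by rw [h]; group
  have h2 := congrArg (fun z : Gamma0 N => (z : SL(2, ℤ)).val 0 1) h1
  simp only [mul_inv_val, adD_val] at h2
  simp at h2
  exact ⟨_, h2.symm⟩

theorem exists_adD_mul {N q : ℕ} [NeZero q] (g y : Gamma0 N)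
    (h : (q : ℤ) ∣ (g : SL(2, ℤ)).val 0 1 * (y : SL(2, ℤ)).val 0 0 -
      (g : SL(2, ℤ)).val 0 0 * (y : SL(2, ℤ)).val 0 1) : ∃ a, g = adD N q a * y := by
  obtain ⟨a, ha⟩ := exists_adD_eq (q := q) (g * y⁻¹) (by rw [mul_inv_val]; simpa using h)
  exact ⟨a, by rw [ha]; group⟩

theorem val_eq_of_dvd_sub {q : ℕ} [NeZero q] {i j : ZMod q} (h : (q : ℤ) ∣ (i.val : ℤ) - j.val) :
    i = j := by
  rw [← ZMod.intCast_zmod_eq_zero_iff_dvd] at h
  push_cast at h
  rw [ZMod.natCast_zmod_val, ZMod.natCast_zmod_val, sub_eq_zero] at h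
  exact h

theorem isReps_repI {N q : ℕ} [NeZero q] (hq : q.Prime) (hqN : ¬ q ∣ N) (u v : ℤ)
    (huv : (q : ℤ) * u - N * v = 1) : IsReps (incl N q) (repI N q u v huv) := by
  haveI : Fact q.Prime := ⟨hq⟩
  have hcop : Nat.Coprime N q := ((Nat.Prime.coprime_iff_not_dvd hq).mpr hqN).symm
  have hqN' : ¬ (q : ℤ) ∣ N := by exact_mod_cast hqN
  have hqp : Prime (q : ℤ) := Nat.prime_iff_prime_int.mp hq
  refine isReps_of (incl_injective N q) ?_ ?_
  · intro i j a h
    have hd := incl_cross a _ _ h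
    induction i using OnePoint.rec with
    | infty =>
      induction j using OnePoint.rec with
      | infty => rfl
      | coe j =>
        exfalso
        rw [repI_coe_val, repI_infty] at hd
        simp at hd
        exact hqN' hd
    | coe i =>
      induction j using OnePoint.rec with
      | infty =>
        exfalso
        rw [repI_coe_val, repI_infty] at hd
        simp at hd
        exact hqN' hd
      | coe j =>
        rw [repI_coe_val, repI_coe_val] at hd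
        simp at hd
        have e : (N : ℤ) * (N * j.val + q) - (N * i.val + q) * N = N * (N * ((j.val : ℤ) - i.val)) := by
          ring
        simp only [ZMod.natCast_val] at e
        rw [e] at hd
        have h3 := (hqp.dvd_or_dvd ((hqp.dvd_or_dvd hd).resolve_left hqN')).resolve_left hqN'
        have h4 : j = i := by
          apply val_eq_of_dvd_sub
          simpa using h3
        rw [h4]
  · intro g
    by_cases hg : (q : ℤ) ∣ (g : SL(2, ℤ)).val 1 0
    · refine ⟨OnePoint.infty, exists_incl_mul hcop g _ ?_⟩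
      rw [repI_infty]
      simpa using hg
    · have hg' : (((g : SL(2, ℤ)).val 1 0 : ℤ) : ZMod q) ≠ 0 := by
        rwa [Ne, ZMod.intCast_zmod_eq_zero_iff_dvd]
      set j : ZMod q := (((g : SL(2, ℤ)).val 1 1 : ℤ) : ZMod q) / (((g : SL(2, ℤ)).val 1 0 : ℤ) : ZMod q)
        with hj
      refine ⟨(j : OnePoint (ZMod q)), exists_incl_mul hcop g _ ?_⟩
      rw [repI_coe_val]
      rw [← ZMod.intCast_zmod_eq_zero_iff_dvd]
      simp only [Matrix.of_apply, Matrix.cons_val', Matrix.cons_val_zero, Matrix.cons_val_one,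
        Matrix.cons_val_fin_one]
      push_cast
      rw [ZMod.natCast_zmod_val, ZMod.natCast_self, hj]
      field_simp
      ring

theorem isReps_repA {N q : ℕ} [NeZero q] (hq : q.Prime) (u v : ℤ)
    (huv : (q : ℤ) * u - N * v = 1) : IsReps (adD N q) (repA N q u v huv) := by
  haveI : Fact q.Prime := ⟨hq⟩
  have hqp : Prime (q : ℤ) := Nat.prime_iff_prime_int.mp hq
  have hqv : ¬ (q : ℤ) ∣ v := by
    intro h
    have : (q : ℤ) ∣ 1 := by
      rw [← huv]
      exact dvd_sub (Dvd.intro _ rfl) (Dvd.dvd.mul_left h _)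
    exact hqp.not_dvd_one this
  refine isReps_of (adD_injective N q) ?_ ?_
  · intro i j a h
    have hd := adD_cross a _ _ h
    induction i using OnePoint.rec with
    | infty =>
      induction j using OnePoint.rec with
      | infty => rfl
      | coe j =>
        exfalso
        rw [repA_coe_val, repA_infty_val] at hd
        simp at hd
        apply hqv
        have := dvd_add hd (Dvd.intro (u * (j.cast : ℤ)) rfl)
        have e : v - (q : ℤ) * u * (j.cast : ℤ) + q * (u * (j.cast : ℤ)) = v := by ring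
        rwa [e] at this
    | coe i =>
      induction j using OnePoint.rec with
      | infty =>
        exfalso
        rw [repA_coe_val, repA_infty_val] at hd
        simp at hd
        apply hqv
        have := dvd_sub (Dvd.intro ((i.cast : ℤ) * u) rfl) hd
        have e : (q : ℤ) * ((i.cast : ℤ) * u) - ((i.cast : ℤ) * (q * u) - v) = v := by ring
        rwa [e] at this
      | coe j =>
        rw [repA_coe_val, repA_coe_val] at hd
        simp at hd
        have h4 : i = j := by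
          apply val_eq_of_dvd_sub
          simpa using hd
        rw [h4]
  · intro g
    by_cases hg : (q : ℤ) ∣ (g : SL(2, ℤ)).val 0 0
    · refine ⟨OnePoint.infty, exists_adD_mul g _ ?_⟩
      rw [repA_infty_val]
      simp only [Matrix.of_apply, Matrix.cons_val', Matrix.cons_val_zero, Matrix.cons_val_one,
        Matrix.cons_val_fin_one]
      exact dvd_sub (Dvd.intro_left ((g : SL(2, ℤ)).val 0 1 * u) (by ring)) (Dvd.dvd.mul_right hg _)
    · have hg' : (((g : SL(2, ℤ)).val 0 0 : ℤ) : ZMod q) ≠ 0 := by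
        rwa [Ne, ZMod.intCast_zmod_eq_zero_iff_dvd]
      set j : ZMod q := (((g : SL(2, ℤ)).val 0 1 : ℤ) : ZMod q) / (((g : SL(2, ℤ)).val 0 0 : ℤ) : ZMod q)
        with hj
      refine ⟨(j : OnePoint (ZMod q)), exists_adD_mul g _ ?_⟩
      rw [repA_coe_val]
      rw [← ZMod.intCast_zmod_eq_zero_iff_dvd]
      simp only [Matrix.of_apply, Matrix.cons_val', Matrix.cons_val_zero, Matrix.cons_val_one,
        Matrix.cons_val_fin_one]
      push_cast
      rw [ZMod.natCast_zmod_val, hj]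
      field_simp
      ring

end Fermat.Agent.S41Lib
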