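import Mathlib
import Fermat.Agent.ES.KDefs
import Fermat.Agent.S41.F1.Trf
import Fermat.Agent.S41.F1.Lvl

/-!
# S41, chapter F1: the maps `a = (res, res ∘ Ad δ)`, `b = (transfer, transfer ∘ Ad δ⁻¹)` on `EP`
and `b ∘ a = [[q + 1, T_q], [T_q, q + 1]]`
-/

set_option autoImplicit false

open CongruenceSubgroup Matrix.SpecialLinearGroup
open scoped MatrixGroups

namespace Fermat.Agent.S41Lib

open Fermat.Agent.ESLib Additive
open P2MW.S_ModularForm_heckeT_slash_eq_self_of_mem_Gamma0.ModularForm.HeckeSlashInvariance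

/-! ### traces of powers and conjugates -/

theorem trace_step (τ x y : ℤ) (hτ : τ ^ 2 ≤ 4) (hinv : x ^ 2 - τ * x * y + y ^ 2 = 4 - τ ^ 2)
    (hy : y ^ 2 ≤ 4) : (τ * y - x) ^ 2 ≤ 4 := by
  obtain ⟨z, hz⟩ : ∃ z, z = τ * y - x := ⟨_, rfl⟩
  rw [← hz]
  have hinv' : y ^ 2 - τ * y * z + z ^ 2 = 4 - τ ^ 2 := by rw [hz]; linear_combination hinv
  have key : (4 - τ ^ 2) * (4 - z ^ 2) = (2 * y - τ * z) ^ 2 := by
    linear_combination (-4) * hinv'
  rcases hτ.lt_or_eq with h | h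
  · by_contra hzz
    have := mul_neg_of_pos_of_neg (by linarith : 0 < 4 - τ ^ 2) (by linarith : 4 - z ^ 2 < 0)
    rw [key] at this
    exact absurd this (not_lt.mpr (sq_nonneg _))
  · rw [h, sub_self, zero_mul] at key
    have h2 : 2 * y - τ * z = 0 := by
      have := key.symm
      exact pow_eq_zero_iff (two_ne_zero) |>.mp this
    have h3 : 4 * z ^ 2 = 4 * y ^ 2 := by
      have : τ * z = 2 * y := by linarith
      calc 4 * z ^ 2 = τ ^ 2 * z ^ 2 := by rw [h]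
        _ = (τ * z) ^ 2 := by ring
        _ = 4 * y ^ 2 := by rw [this]; ring
    linarith

theorem cayley_two (M : Matrix (Fin 2) (Fin 2) ℤ) (h : M.det = 1) :
    M * M = M.trace • M - 1 := by
  rw [Matrix.det_fin_two] at h
  ext i j
  fin_cases i <;> fin_cases j <;>
    simp [-zsmul_eq_mul, Matrix.mul_apply, Fin.sum_univ_two, Matrix.trace_fin_two] <;>
    first | ring1 | linear_combination -h

theorem trace_pow_rec (g : SL(2, ℤ)) (n : ℕ) :
    (g ^ (n + 2) : SL(2, ℤ)).val.trace =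
      g.val.trace * (g ^ (n + 1) : SL(2, ℤ)).val.trace - (g ^ n : SL(2, ℤ)).val.trace := by
  have h1 : (g ^ (n + 2) : SL(2, ℤ)).val = (g ^ n : SL(2, ℤ)).val * (g.val * g.val) := by
    rw [pow_add, pow_two, Matrix.SpecialLinearGroup.coe_mul, Matrix.SpecialLinearGroup.coe_mul]
  have h2 : (g ^ (n + 1) : SL(2, ℤ)).val = (g ^ n : SL(2, ℤ)).val * g.val := by
    rw [pow_succ, Matrix.SpecialLinearGroup.coe_mul]
  rw [h1, h2, cayley_two g.val g.2, Matrix.mul_sub, Matrix.mul_one, Matrix.mul_smul,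
    Matrix.trace_sub, Matrix.trace_smul, smul_eq_mul]

theorem trace_pow_sq_le (g : SL(2, ℤ)) (h : g.val.trace ^ 2 ≤ 4) (n : ℕ) :
    (g ^ n : SL(2, ℤ)).val.trace ^ 2 ≤ 4 := by
  have key : ∀ n : ℕ, (g ^ n : SL(2, ℤ)).val.trace ^ 2 -
      g.val.trace * (g ^ n : SL(2, ℤ)).val.trace * (g ^ (n + 1) : SL(2, ℤ)).val.trace +
      (g ^ (n + 1) : SL(2, ℤ)).val.trace ^ 2 = 4 - g.val.trace ^ 2 ∧
      (g ^ n : SL(2, ℤ)).val.trace ^ 2 ≤ 4 ∧ (g ^ (n + 1) : SL(2, ℤ)).val.trace ^ 2 ≤ 4 := by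
    intro n
    induction n with
    | zero =>
      have h0 : ((g ^ 0 : SL(2, ℤ))).val.trace = 2 := by
        rw [pow_zero, Matrix.SpecialLinearGroup.coe_one, Matrix.trace_one]; rfl
      rw [h0, zero_add, pow_one]
      refine ⟨by ring, by norm_num, h⟩
    | succ n ih =>
      obtain ⟨h1, h2, h3⟩ := ih
      have hr := trace_pow_rec g n
      have h4 := trace_step _ _ _ h h1 h3
      rw [← hr] at h4
      refine ⟨?_, h3, h4⟩
      rw [show n + 1 + 1 = n + 2 from rfl, hr]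
      linear_combination h1
  exact (key n).2.1

theorem trace_conj (c g : SL(2, ℤ)) : (c * g * c⁻¹ : SL(2, ℤ)).val.trace = g.val.trace := by
  rw [Matrix.SpecialLinearGroup.coe_mul, Matrix.SpecialLinearGroup.coe_mul,
    Matrix.trace_mul_cycle, ← Matrix.SpecialLinearGroup.coe_mul, inv_mul_cancel,
    Matrix.SpecialLinearGroup.coe_one, Matrix.one_mul]

/-- the elliptic and parabolic elements (and `± 1`) -/
def ellPar (N : ℕ) : Set (Gamma0 N) := {g | (g : SL(2, ℤ)).val.trace ^ 2 ≤ 4}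

theorem ellPar_pow {N : ℕ} (g : Gamma0 N) (hg : g ∈ ellPar N) (n : ℕ) : g ^ n ∈ ellPar N := by
  show ((g ^ n : Gamma0 N) : SL(2, ℤ)).val.trace ^ 2 ≤ 4
  rw [Subgroup.coe_pow]
  exact trace_pow_sq_le _ hg n

theorem ellPar_conj {N : ℕ} (g : Gamma0 N) (hg : g ∈ ellPar N) (c : Gamma0 N) :
    c * g * c⁻¹ ∈ ellPar N := by
  show ((c * g * c⁻¹ : Gamma0 N) : SL(2, ℤ)).val.trace ^ 2 ≤ 4
  rw [Subgroup.coe_mul, Subgroup.coe_mul, Subgroup.coe_inv, trace_conj]
  exact hg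

/-! ### the maps `a` and `b` -/

/-- degeneracy homomorphisms `Γ₀(N q) → Γ₀(N)` -/
structure IsDeg {N q : ℕ} (ι : Gamma0 (N * q) →* Gamma0 N) : Prop where
  trace : ∀ γ, (ι γ : SL(2, ℤ)).val.trace = (γ : SL(2, ℤ)).val.trace
  reps : ∃ t : OnePoint (ZMod q) → Gamma0 N, IsReps ι t

theorem exists_bezout {N q : ℕ} (hq : q.Prime) (hqN : ¬ q ∣ N) :
    ∃ u v : ℤ, (q : ℤ) * u - N * v = 1 := by
  have hcop : IsCoprime (q : ℤ) (N : ℤ) :=
    Nat.isCoprime_iff_coprime.mpr ((Nat.Prime.coprime_iff_not_dvd hq).mpr hqN)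
  obtain ⟨a, b, hab⟩ := hcop
  exact ⟨a, -b, by linear_combination hab⟩

theorem isDeg_incl {N q : ℕ} [NeZero q] (hq : q.Prime) (hqN : ¬ q ∣ N) : IsDeg (incl N q) := by
  obtain ⟨u, v, huv⟩ := exists_bezout hq hqN
  exact ⟨trace_incl N q, _, isReps_repI hq hqN u v huv⟩

theorem isDeg_adD {N q : ℕ} [NeZero q] (hq : q.Prime) (hqN : ¬ q ∣ N) : IsDeg (adD N q) := by
  obtain ⟨u, v, huv⟩ := exists_bezout hq hqN
  exact ⟨trace_adD N q, _, isReps_repA hq u v huv⟩

section Maps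

variable {N q : ℕ} {ι : Gamma0 (N * q) →* Gamma0 N} (B : Type*) [AddCommGroup B]

/-- `a_ι φ = φ ∘ ι` -/
def aOf (hι : IsDeg ι) : EP N B →+ EP (N * q) B :=
  AddMonoidHom.mk' (fun φ => ⟨(φ : Additive (Gamma0 N) →+ B).comp (MonoidHom.toAdditive ι),
    fun γ hγ => φ.2 (ι γ) (by rw [hι.trace]; exact hγ)⟩) (fun _ _ => rfl)

/-- `b_ι φ' =` the transfer of `φ'` along `ι` -/
noncomputable def bOf [NeZero q] (hι : IsDeg ι) : EP (N * q) B →+ EP N B :=
  AddMonoidHom.mk' (fun φ' => ⟨trf hι.reps.choose_spec (φ' : Additive (Gamma0 (N * q)) →+ B),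
    fun g hg => trf_kills hι.reps.choose_spec (ellPar N) ellPar_pow ellPar_conj _
      (fun γ hγ => φ'.2 γ (by rw [← hι.trace]; exact hγ)) g hg⟩)
    (fun φ' ψ' => Subtype.ext (trf_add hι.reps.choose_spec
      (φ' : Additive (Gamma0 (N * q)) →+ B) (ψ' : Additive (Gamma0 (N * q)) →+ B)))

variable {B}

@[simp] theorem aOf_apply (hι : IsDeg ι) (φ : EP N B) (γ : Gamma0 (N * q)) :
    (aOf B hι φ : Additive (Gamma0 (N * q)) →+ B) (ofMul γ) =
      (φ : Additive (Gamma0 N) →+ B) (ofMul (ι γ)) := rfl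

/-- **specification of `b`** (any complete system of representatives) -/
theorem b_spec [NeZero q] (hι : IsDeg ι) {I : Type*} [Fintype I] (t : I → Gamma0 N)
    (ht : Function.Bijective fun x : Gamma0 (N * q) × I => ι x.1 * t x.2) (g : Gamma0 N)
    (s : Equiv.Perm I) (η : I → Gamma0 (N * q)) (h : ∀ i, t i * g = ι (η i) * t (s i))
    (φ' : EP (N * q) B) :
    (bOf B hι φ' : Additive (Gamma0 N) →+ B) (ofMul g) =
      ∑ i, (φ' : Additive (Gamma0 (N * q)) →+ B) (ofMul (η i)) :=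
  trf_spec hι.reps.choose_spec ht g s η h (φ' : Additive (Gamma0 (N * q)) →+ B)

/-- existence of transfer data for any complete system of representatives -/
theorem exists_b_data {I : Type*} (t : I → Gamma0 N)
    (ht : Function.Bijective fun x : Gamma0 (N * q) × I => ι x.1 * t x.2) (g : Gamma0 N) :
    ∃ (s : Equiv.Perm I) (η : I → Gamma0 (N * q)), ∀ i, t i * g = ι (η i) * t (s i) :=
  IsReps.exists_data ht g

/-- change of coefficients -/
def mapEP (N : ℕ) {B C : Type*} [AddCommGroup B] [AddCommGroup C] (f : B →+ C) :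
    EP N B →+ EP N C :=
  AddMonoidHom.mk' (fun φ => ⟨f.comp (φ : Additive (Gamma0 N) →+ B), fun γ hγ => by
    show f ((φ : Additive (Gamma0 N) →+ B) (ofMul γ)) = 0
    rw [φ.2 γ hγ, map_zero]⟩) (fun φ ψ => Subtype.ext (by
      refine AddMonoidHom.ext fun x => ?_
      exact map_add f _ _))

theorem aOf_mapEP (hι : IsDeg ι) {C : Type*} [AddCommGroup C] (f : B →+ C) (φ : EP N B) :
    aOf C hι (mapEP N f φ) = mapEP (N * q) f (aOf B hι φ) := rfl

theorem bOf_mapEP [NeZero q] (hι : IsDeg ι) {C : Type*} [AddCommGroup C] (f : B →+ C)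
    (φ' : EP (N * q) B) : bOf C hι (mapEP (N * q) f φ') = mapEP N f (bOf B hι φ') :=
  Subtype.ext (trf_comp hι.reps.choose_spec f (φ' : Additive (Gamma0 (N * q)) →+ B))

/-- `b_ι a_ι = q + 1` -/
theorem bOf_aOf_same [NeZero q] (hι : IsDeg ι) (φ : EP N B) :
    bOf B hι (aOf B hι φ) = (q + 1) • φ := by
  apply Subtype.ext
  have h := trf_res hι.reps.choose_spec (φ : Additive (Gamma0 N) →+ B)
  have hc : Fintype.card (OnePoint (ZMod q)) = q + 1 :=
    (Fintype.card_option (α := ZMod q)).trans (by rw [ZMod.card])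
  rw [hc] at h
  exact h

end Maps

section Mixed

variable {N q : ℕ} [NeZero q] {B : Type*} [AddCommGroup B]

/-- `b_incl a_adD = T_q` -/
theorem bOf_incl_aOf_adD (hq : q.Prime) (hqN : ¬ q ∣ N) (h1 : IsDeg (incl N q))
    (h2 : IsDeg (adD N q)) (φ φ₁ : EP N B)
    (hT : IsTr N q (φ : Additive (Gamma0 N) →+ B) (φ₁ : Additive (Gamma0 N) →+ B)) :
    bOf B h1 (aOf B h2 φ) = φ₁ := by
  obtain ⟨u, v, huv⟩ := exists_bezout hq hqN
  apply Subtype.ext
  refine AddMonoidHom.ext fun g' => ?_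
  obtain ⟨g, hg⟩ : ∃ g, ofMul g = g' := ⟨toMul g', rfl⟩
  subst hg
  have ht := isReps_repI hq hqN u v huv
  obtain ⟨s, η, h⟩ := ht.exists_data g
  rw [b_spec h1 _ ht g s η h]
  simp only [aOf_apply]
  have key := intertwine ((emb N).comp (incl N q)) (emb N) (emb N) (emb N) (adD N q)
    (MonoidHom.id _) (heckeRep q OnePoint.infty) 1 (fun η => D_mul_emb N q η) (fun γ => by simp)
    (fun x => emb N (repI N q u v huv x)) (heckeRep q) (cI N q u v huv) (Equiv.refl _)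
    (fun x => by rw [mul_one]; exact D_mul_repI N q u v huv x) g η s
    (fun x => by rw [← map_mul, h, map_mul]; rfl)
  have hTr : Transfer N q g
      (fun y => (cI N q u v huv y)⁻¹ * adD N q (η y) * cI N q u v huv (s y)) := ⟨_, key⟩
  rw [hT g _ hTr]
  exact (sum_conj_perm (φ : Additive (Gamma0 N) →+ B) (cI N q u v huv) (Equiv.refl _) s
    (fun x => adD N q (η x))).symm

/-- `b_adD a_incl = T_q` -/
theorem bOf_adD_aOf_incl (hq : q.Prime) (hqN : ¬ q ∣ N) (h1 : IsDeg (incl N q))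
    (h2 : IsDeg (adD N q)) (φ φ₁ : EP N B)
    (hT : IsTr N q (φ : Additive (Gamma0 N) →+ B) (φ₁ : Additive (Gamma0 N) →+ B)) :
    bOf B h2 (aOf B h1 φ) = φ₁ := by
  obtain ⟨u, v, huv⟩ := exists_bezout hq hqN
  apply Subtype.ext
  refine AddMonoidHom.ext fun g' => ?_
  obtain ⟨g, hg⟩ : ∃ g, ofMul g = g' := ⟨toMul g', rfl⟩
  subst hg
  have ht := isReps_repA (N := N) hq u v huv
  obtain ⟨s, η, h⟩ := ht.exists_data g
  rw [b_spec h2 _ ht g s η h]
  simp only [aOf_apply]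
  have key := intertwine ((emb N).comp (adD N q)) (emb N) (emb N) (emb N) (incl N q)
    (MonoidHom.id _) (heckeRep q ((0 : ZMod q) : OnePoint (ZMod q))) 1
    (fun η => eps_mul_emb N q η) (fun γ => by simp)
    (fun x => emb N (repA N q u v huv x)) (heckeRep q) (cA N q u v huv) (Equiv.refl _)
    (fun x => by rw [mul_one]; exact eps_mul_repA N q u v huv x) g η s
    (fun x => by rw [← map_mul, h, map_mul]; rfl)
  have hTr : Transfer N q g
      (fun y => (cA N q u v huv y)⁻¹ * incl N q (η y) * cA N q u v huv (s y)) := ⟨_, key⟩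
  rw [hT g _ hTr]
  exact (sum_conj_perm (φ : Additive (Gamma0 N) →+ B) (cA N q u v huv) (Equiv.refl _) s
    (fun x => incl N q (η x))).symm

/-! ### `a` commutes with `T_ℓ` -/

omit [NeZero q] in
theorem aOf_incl_comm {ℓ : ℕ} [NeZero ℓ] (h1 : IsDeg (incl N q)) (φ φ₁ : EP N B)
    (hT : IsTr N ℓ (φ : Additive (Gamma0 N) →+ B) (φ₁ : Additive (Gamma0 N) →+ B)) :
    IsTr (N * q) ℓ (aOf B h1 φ : Additive (Gamma0 (N * q)) →+ B)
      (aOf B h1 φ₁ : Additive (Gamma0 (N * q)) →+ B) := by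
  rintro γ γ' ⟨π, h⟩
  exact hT (incl N q γ) (fun x => incl N q (γ' x)) ⟨π, h⟩

theorem exists_D_comm (N : ℕ) {ℓ : ℕ} [NeZero ℓ] (hℓ : ℓ.Prime) (hℓq : ¬ ℓ ∣ q) :
    ∃ (τ : Equiv.Perm (OnePoint (ZMod ℓ))) (c : OnePoint (ZMod ℓ) → Gamma0 N), ∀ x,
      heckeRep q OnePoint.infty * heckeRep ℓ x =
        emb N (c x) * heckeRep ℓ (τ x) * heckeRep q OnePoint.infty := by
  have : Fact ℓ.Prime := ⟨hℓ⟩
  have hq0 : ((q : ℕ) : ZMod ℓ) ≠ 0 := by
    rwa [Ne, ZMod.natCast_eq_zero_iff]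
  have h0 : q ≠ 0 := NeZero.ne q
  have hl0 : ℓ ≠ 0 := NeZero.ne ℓ
  set τ : Equiv.Perm (OnePoint (ZMod ℓ)) := Equiv.optionCongr (Equiv.mulLeft₀ (q : ZMod ℓ) hq0)
    with hτ
  have main : ∀ x, ∃ c : Gamma0 N, heckeRep q OnePoint.infty * heckeRep ℓ x =
        emb N c * heckeRep ℓ (τ x) * heckeRep q OnePoint.infty := by
    intro x
    induction x using OnePoint.rec with
    | infty =>
      refine ⟨1, ?_⟩
      have : τ OnePoint.infty = OnePoint.infty := rfl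
      rw [this, map_one, one_mul]
      refine ((intVal_heckeRep_infty h0).mul (intVal_heckeRep_infty hl0)).ext
        ((intVal_heckeRep_infty hl0).mul (intVal_heckeRep_infty h0)) ?_
      ext a b
      fin_cases a <;> fin_cases b <;> simp [Matrix.mul_apply, Fin.sum_univ_two]
      ring
    | coe j =>
      have : τ ((j : ZMod ℓ) : OnePoint (ZMod ℓ)) =
          (((q : ZMod ℓ) * j : ZMod ℓ) : OnePoint (ZMod ℓ)) := rfl
      rw [this]
      obtain ⟨e, he⟩ : (ℓ : ℤ) ∣ (q : ℤ) * j.val - ((q : ZMod ℓ) * j).val := by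
        rw [← ZMod.intCast_zmod_eq_zero_iff_dvd]
        push_cast
        rw [ZMod.natCast_zmod_val, ZMod.natCast_zmod_val, sub_self]
      refine ⟨tG N e, ?_⟩
      refine ((intVal_heckeRep_infty h0).mul (intVal_heckeRep_coe hl0 j)).ext
        (((intVal_emb _).mul (intVal_heckeRep_coe hl0 _)).mul (intVal_heckeRep_infty h0)) ?_
      simp only [tG, lvG_val]
      ext a b
      fin_cases a <;> fin_cases b <;>
        simp [Matrix.mul_apply, Fin.sum_univ_two, -ZMod.natCast_val]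
      linear_combination he
  choose c hc using main
  exact ⟨τ, c, hc⟩

theorem aOf_adD_comm {ℓ : ℕ} [NeZero ℓ] (hℓ : ℓ.Prime) (hℓq : ¬ ℓ ∣ q) (h2 : IsDeg (adD N q))
    (φ φ₁ : EP N B)
    (hT : IsTr N ℓ (φ : Additive (Gamma0 N) →+ B) (φ₁ : Additive (Gamma0 N) →+ B)) :
    IsTr (N * q) ℓ (aOf B h2 φ : Additive (Gamma0 (N * q)) →+ B)
      (aOf B h2 φ₁ : Additive (Gamma0 (N * q)) →+ B) := by
  obtain ⟨τ, c, hc⟩ := exists_D_comm (q := q) N hℓ hℓq
  rintro γ γ' ⟨π, h⟩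
  have key := intertwine (emb (N * q)) (emb (N * q)) (emb N) (emb N) (adD N q) (adD N q)
    (heckeRep q OnePoint.infty) (heckeRep q OnePoint.infty)⁻¹ (D_mul_emb N q)
    (fun γ => by
      have := D_mul_emb N q γ
      have e : emb N (incl N q γ) = emb (N * q) γ := rfl
      rw [e] at this
      rw [eq_inv_mul_iff_mul_eq, ← mul_assoc, this]; group)
    (heckeRep ℓ) (heckeRep ℓ) c τ (fun x => by rw [hc]; group) γ γ' π h
  have hTr : Transfer N ℓ (adD N q γ) (fun y => (c (τ.symm y))⁻¹ * adD N q (γ' (τ.symm y)) *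
      c (π (τ.symm y))) := ⟨τ.symm.trans (π.trans τ), key⟩
  show (φ₁ : Additive (Gamma0 N) →+ B) (ofMul (adD N q γ)) =
    ∑ x, (φ : Additive (Gamma0 N) →+ B) (ofMul (adD N q (γ' x)))
  rw [hT _ _ hTr]
  exact sum_conj_perm (φ : Additive (Gamma0 N) →+ B) c τ π (fun x => adD N q (γ' x))

end Mixed

end Fermat.Agent.S41Lib
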