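import Fermat.Agent.S41.F1.AB
import Fermat.Agent.S41.F1.Adapt
import Fermat.Agent.ES.Theta

/-!
# S41, chapter F1: `b` commutes with `T_ℓ` (`ℓ ∤ N q`)
-/

set_option autoImplicit false

open CongruenceSubgroup Matrix.SpecialLinearGroup
open scoped MatrixGroups

namespace Fermat.Agent.S41Lib

open Fermat.Agent.ESLib Additive
open P2MW.S_ModularForm_heckeT_slash_eq_self_of_mem_Gamma0.ModularForm.HeckeSlashInvariance

/-- two families of representatives of the same (distinct) cosets give the same operator -/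
theorem two_families {G Γ' Z B : Type*} [Group G] [Group Γ'] [Fintype Z] [AddCommGroup B]
    (e' : Γ' →* G) (he' : Function.Injective e') (Ψ Φ : Z → G)
    (hΦ : ∀ w w' a, Φ w = e' a * Φ w' → w = w')
    (hΨ : ∀ z z' a, Ψ z = e' a * Ψ z' → z = z')
    (hrel : ∀ z, ∃ c w, Ψ z = e' c * Φ w)
    (x : G) (S : Equiv.Perm Z) (η' : Z → Γ') (h1 : ∀ z, Ψ z * x = e' (η' z) * Ψ (S z))
    (S'' : Z → Z) (η'' : Z → Γ') (h2 : ∀ w, Φ w * x = e' (η'' w) * Φ (S'' w))
    (φ' : Additive Γ' →+ B) :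
    ∑ z, φ' (ofMul (η' z)) = ∑ w, φ' (ofMul (η'' w)) := by
  choose c σ hσ using hrel
  have hinj : Function.Injective σ := by
    intro z z' hzz
    apply hΨ z z' (c z * (c z')⁻¹)
    rw [hσ z, hσ z', hzz, map_mul, map_inv]; group
  have hbij : Function.Bijective σ := Finite.injective_iff_bijective.mp hinj
  have key : ∀ z, η'' (σ z) = (c z)⁻¹ * η' z * c (S z) := by
    intro z
    have e1 : e' (η'' (σ z)) * Φ (S'' (σ z)) = e' ((c z)⁻¹ * η' z * c (S z)) * Φ (σ (S z)) := by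
      rw [← h2 (σ z), map_mul, map_mul, map_inv, mul_assoc, ← hσ (S z), mul_assoc, ← h1 z, hσ z]
      group
    have e2 : S'' (σ z) = σ (S z) := by
      apply hΦ _ _ ((η'' (σ z))⁻¹ * ((c z)⁻¹ * η' z * c (S z)))
      rw [map_mul, map_inv, mul_assoc, ← e1]; group
    rw [e2] at e1
    exact he' (mul_right_cancel e1)
  rw [← Equiv.sum_comp (Equiv.ofBijective σ hbij) (fun w => φ' (ofMul (η'' w)))]
  simp only [Equiv.ofBijective_apply, key]
  exact (sum_conj_perm φ' c (Equiv.refl Z) S η').symm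

/-! ### the integral matrices of the representatives -/

/-- the integral matrix of `heckeRep ℓ y` -/
def hkM (ℓ : ℕ) (y : OnePoint (ZMod ℓ)) : Matrix (Fin 2) (Fin 2) ℤ :=
  y.elim !![(ℓ : ℤ), 0; 0, 1] (fun j => !![1, (j.val : ℤ); 0, (ℓ : ℤ)])

theorem intVal_heckeRep {ℓ : ℕ} (h0 : ℓ ≠ 0) (y : OnePoint (ZMod ℓ)) :
    IntVal (heckeRep ℓ y) (hkM ℓ y) := by
  induction y using OnePoint.rec with
  | infty => exact intVal_heckeRep_infty h0
  | coe j => exact intVal_heckeRep_coe h0 j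

theorem hkM_10 (ℓ : ℕ) (y : OnePoint (ZMod ℓ)) : hkM ℓ y 1 0 = 0 := by
  induction y using OnePoint.rec with
  | infty => rfl
  | coe j => rfl

theorem hkM_00_dvd (ℓ : ℕ) (y : OnePoint (ZMod ℓ)) : hkM ℓ y 0 0 ∣ (ℓ : ℤ) := by
  induction y using OnePoint.rec with
  | infty => exact dvd_refl _
  | coe j => exact one_dvd _

theorem hkM_11_dvd (ℓ : ℕ) (y : OnePoint (ZMod ℓ)) : hkM ℓ y 1 1 ∣ (ℓ : ℤ) := by
  induction y using OnePoint.rec with
  | infty => exact one_dvd _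
  | coe j => exact dvd_refl _

/-- the cosets `SL₂(ℤ) heckeRep ℓ y` are distinct -/
theorem heckeRep_distinct {ℓ : ℕ} [NeZero ℓ] (hℓ : ℓ.Prime) (y y' : OnePoint (ZMod ℓ))
    (γ : SL(2, ℤ)) (h : heckeRep ℓ y = mapGL ℝ γ * heckeRep ℓ y') : y = y' ∧ γ = 1 := by
  have h0 : ℓ ≠ 0 := NeZero.ne ℓ
  have hl0 : (ℓ : ℤ) ≠ 0 := by exact_mod_cast h0
  have hl1 : ¬ (ℓ : ℤ) ∣ 1 := by
    intro hd
    have := Int.natAbs_dvd_natAbs.mpr hd
    simp at this
    exact hℓ.one_lt.ne' this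
  have hM := (intVal_heckeRep h0 y).inj ((intVal_mapGL γ).mul (intVal_heckeRep h0 y')) h
  have e00 := congrFun (congrFun hM 0) 0
  have e01 := congrFun (congrFun hM 0) 1
  have e10 := congrFun (congrFun hM 1) 0
  have e11 := congrFun (congrFun hM 1) 1
  simp only [Matrix.mul_apply, Fin.sum_univ_two] at e00 e01 e10 e11
  have hone : ∀ (a b c d : ℤ), γ.val 0 0 = a → γ.val 0 1 = b → γ.val 1 0 = c → γ.val 1 1 = d →
      a = 1 → b = 0 → c = 0 → d = 1 → γ = 1 := by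
    intro a b c d ha hb hc hd h1 h2 h3 h4
    ext i j
    fin_cases i <;> fin_cases j
    · show γ.val 0 0 = 1
      rw [ha, h1]
    · show γ.val 0 1 = 0
      rw [hb, h2]
    · show γ.val 1 0 = 0
      rw [hc, h3]
    · show γ.val 1 1 = 1
      rw [hd, h4]
  induction y using OnePoint.rec with
  | infty =>
    induction y' using OnePoint.rec with
    | infty =>
      simp [hkM] at e00 e01 e10 e11
      refine ⟨rfl, hone _ _ _ _ rfl rfl rfl rfl ?_ e01.symm ?_ e11.symm⟩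
      · exact mul_right_cancel₀ hl0 (by rw [one_mul]; exact e00.symm)
      · exact (e10.resolve_right h0)
    | coe j' =>
      exfalso
      simp [hkM] at e00 e01 e10 e11
      rw [← e10] at e11
      simp at e11
      exact hl1 ⟨_, by rw [e11]; ring⟩
  | coe j =>
    induction y' using OnePoint.rec with
    | infty =>
      exfalso
      simp [hkM] at e00 e01 e10 e11
      exact hl1 ⟨_, by rw [e00]; ring⟩
    | coe j' =>
      simp [hkM, -ZMod.natCast_val] at e00 e01 e10 e11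
      rw [← e10] at e11
      rw [← e00] at e01
      simp [-ZMod.natCast_val] at e11 e01
      have hjj : j = j' := by
        apply val_eq_of_dvd_sub
        exact ⟨γ.val 0 1, by rw [e01]; ring⟩
      subst hjj
      refine ⟨rfl, hone _ _ _ _ rfl rfl rfl rfl e00.symm ?_ e10.symm ?_⟩
      · have : γ.val 0 1 * (ℓ : ℤ) = 0 := by linarith
        exact (mul_eq_zero.mp this).resolve_right hl0
      · exact mul_right_cancel₀ hl0 (by rw [one_mul]; exact e11.symm)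

/-- the general commutation statement -/
theorem bOf_comm_aux {N q ℓ : ℕ} [NeZero N] [NeZero q] [NeZero ℓ] (hℓ : ℓ.Prime)
    (hℓN : ¬ ℓ ∣ N) (hℓNq : ¬ ℓ ∣ N * q) {B : Type*} [AddCommGroup B]
    {ι : Gamma0 (N * q) →* Gamma0 N} (hι : IsDeg ι) (A : GL (Fin 2) ℝ)
    (hA : ∀ η, A * emb N (ι η) = emb (N * q) η * A)
    (hcomm : ∀ y, ∃ (c : Gamma0 N) (y' : OnePoint (ZMod ℓ)),
      heckeRep ℓ y * A = A * emb N c * heckeRep ℓ y')
    (hrange : ∀ (y y' : OnePoint (ZMod ℓ)) (γ : Gamma0 N) (a : Gamma0 (N * q)),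
      heckeRep ℓ y * A * emb N γ = emb (N * q) a * (heckeRep ℓ y' * A) → ∃ a', γ = ι a')
    (φ' ψ' : EP (N * q) B)
    (hT : IsTr (N * q) ℓ (φ' : Additive (Gamma0 (N * q)) →+ B)
      (ψ' : Additive (Gamma0 (N * q)) →+ B)) :
    IsTr N ℓ (bOf B hι φ' : Additive (Gamma0 N) →+ B) (bOf B hι ψ' : Additive (Gamma0 N) →+ B) := by
  rintro g g' ⟨π, hg⟩
  obtain ⟨t, ht⟩ := hι.reps
  obtain ⟨s, η, hη⟩ := ht.exists_data g
  rw [b_spec hι t ht g s η hη ψ']
  choose η' hη' using fun i => exists_transfer (N * q) hℓ hℓNq (η i)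
  choose π' hπ' using hη'
  have hL : ∀ i, (ψ' : Additive (Gamma0 (N * q)) →+ B) (ofMul (η i)) =
      ∑ y, (φ' : Additive (Gamma0 (N * q)) →+ B) (ofMul (η' i y)) :=
    fun i => hT (η i) (η' i) ⟨π' i, hπ' i⟩
  choose s'' η'' hη'' using fun y => ht.exists_data (g' y)
  have hR : ∀ y, (bOf B hι φ' : Additive (Gamma0 N) →+ B) (ofMul (g' y)) =
      ∑ i, (φ' : Additive (Gamma0 (N * q)) →+ B) (ofMul (η'' y i)) :=
    fun y => b_spec hι t ht (g' y) (s'' y) (η'' y) (hη'' y) φ'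
  simp_rw [hL, hR]
  rw [Finset.sum_comm (f := fun y i => (φ' : Additive (Gamma0 (N * q)) →+ B) (ofMul (η'' y i))),
    ← Fintype.sum_prod_type', ← Fintype.sum_prod_type']
  have hAinv : ∀ a, emb (N * q) a * A = A * emb N (ι a) := fun a => (hA a).symm
  refine two_families (emb (N * q)) (emb_injective _)
    (fun z : OnePoint (ZMod q) × OnePoint (ZMod ℓ) => heckeRep ℓ z.2 * A * emb N (t z.1))
    (fun z => A * emb N (t z.1) * heckeRep ℓ z.2) ?_ ?_ ?_ (emb N g)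
    (Equiv.prodShear s π') (fun z => η' z.1 z.2) ?_
    (fun z => (s'' z.2 z.1, π z.2)) (fun z => η'' z.2 z.1) ?_ _
  · -- `Φ` distinct
    rintro ⟨i, y⟩ ⟨i', y'⟩ a h
    simp only at h
    have h1 : heckeRep ℓ y = emb N ((t i)⁻¹ * ι a * t i') * heckeRep ℓ y' := by
      rw [← mul_assoc, ← mul_assoc, hAinv, mul_assoc, mul_assoc, mul_assoc] at h
      have h2 := mul_left_cancel h
      rw [map_mul, map_mul, map_inv, mul_assoc, mul_assoc, eq_inv_mul_iff_mul_eq, h2]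
    obtain ⟨hy, hγ⟩ := heckeRep_distinct hℓ y y' _ h1
    have hγ' : (t i)⁻¹ * ι a * t i' = 1 := Subtype.ext hγ
    have h3 : ι 1 * t i = ι a * t i' := by
      rw [map_one, one_mul]
      have : t i = t i * ((t i)⁻¹ * ι a * t i') := by rw [hγ', mul_one]
      rw [this]; group
    rw [(ht.unique h3).2, hy]
  · -- `Ψ` distinct
    rintro ⟨i, y⟩ ⟨i', y'⟩ a h
    simp only at h
    have h1 : heckeRep ℓ y * A * emb N (t i * (t i')⁻¹) = emb (N * q) a * (heckeRep ℓ y' * A) := by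
      rw [map_mul, map_inv, ← mul_assoc, h]; group
    obtain ⟨a', ha'⟩ := hrange y y' _ a h1
    have h3 : ι 1 * t i = ι a' * t i' := by
      rw [map_one, one_mul, ← ha']; group
    have hi := (ht.unique h3).2
    subst hi
    have h4 : heckeRep ℓ y = emb (N * q) a * heckeRep ℓ y' := by
      rw [← mul_assoc, ← mul_assoc] at h
      exact mul_right_cancel (mul_right_cancel h)
    rw [(heckeRep_distinct hℓ y y' _ h4).1]
  · -- the relation
    rintro ⟨i, y⟩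
    obtain ⟨c, y', hc⟩ := hcomm y
    obtain ⟨t', ρ, ht'⟩ := exists_transfer N hℓ hℓN (t i)
    obtain ⟨⟨c', k⟩, hk⟩ := ht.2 (c * t' y')
    simp only at hk
    refine ⟨c', (k, ρ y'), ?_⟩
    simp only
    have e1 : heckeRep ℓ y' * emb N (t i) = emb N (t' y') * heckeRep ℓ (ρ y') := ht' y'
    calc heckeRep ℓ y * A * emb N (t i) = A * emb N c * (heckeRep ℓ y' * emb N (t i)) := by
          rw [hc]; group
      _ = A * emb N (c * t' y') * heckeRep ℓ (ρ y') := by rw [e1, map_mul]; group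
      _ = (A * emb N (ι c')) * emb N (t k) * heckeRep ℓ (ρ y') := by rw [← hk, map_mul]; group
      _ = emb (N * q) c' * (A * emb N (t k) * heckeRep ℓ (ρ y')) := by rw [hA]; group
  · -- data for `Ψ`
    rintro ⟨i, y⟩
    simp only [Equiv.prodShear_apply]
    have e1 : heckeRep ℓ y * emb (N * q) (η i) = emb (N * q) (η' i y) * heckeRep ℓ (π' i y) :=
      hπ' i y
    calc heckeRep ℓ y * A * emb N (t i) * emb N g = heckeRep ℓ y * A * emb N (t i * g) := by
          rw [map_mul]; group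
      _ = heckeRep ℓ y * (A * emb N (ι (η i))) * emb N (t (s i)) := by
          rw [hη, map_mul]; group
      _ = (heckeRep ℓ y * emb (N * q) (η i)) * A * emb N (t (s i)) := by rw [hA]; group
      _ = emb (N * q) (η' i y) * (heckeRep ℓ (π' i y) * A * emb N (t (s i))) := by
          rw [e1]; group
  · -- data for `Φ`
    rintro ⟨i, y⟩
    simp only
    have e1 : heckeRep ℓ y * emb N g = emb N (g' y) * heckeRep ℓ (π y) := hg y
    calc A * emb N (t i) * heckeRep ℓ y * emb N g = A * emb N (t i) * (heckeRep ℓ y * emb N g) := by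
          group
      _ = A * emb N (t i * g' y) * heckeRep ℓ (π y) := by rw [e1, map_mul]; group
      _ = (A * emb N (ι (η'' y i))) * emb N (t (s'' y i)) * heckeRep ℓ (π y) := by
          rw [hη'', map_mul]; group
      _ = emb (N * q) (η'' y i) * (A * emb N (t (s'' y i)) * heckeRep ℓ (π y)) := by
          rw [hA]; group

section Inst

variable {N q ℓ : ℕ} [NeZero N] [NeZero q] [NeZero ℓ] {B : Type*} [AddCommGroup B]

omit [NeZero N] [NeZero q] [NeZero ℓ] in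
theorem coprime_q_of_dvd_l (hq : q.Prime) (hℓ : ℓ.Prime) (hℓq : ¬ ℓ ∣ q) {d : ℤ}
    (hd : d ∣ (ℓ : ℤ)) : IsCoprime (q : ℤ) d := by
  have h1 : IsCoprime (q : ℤ) (ℓ : ℤ) := by
    apply Nat.isCoprime_iff_coprime.mpr
    rw [Nat.coprime_primes hq hℓ]
    rintro rfl
    exact hℓq (dvd_refl _)
  exact h1.of_isCoprime_of_dvd_right hd

/-- **`b_incl` commutes with `T_ℓ`** -/
theorem bOf_incl_comm (hq : q.Prime) (hqN : ¬ q ∣ N) (hℓ : ℓ.Prime) (hℓNq : ¬ ℓ ∣ N * q)
    (h1 : IsDeg (incl N q)) (φ' ψ' : EP (N * q) B)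
    (hT : IsTr (N * q) ℓ (φ' : Additive (Gamma0 (N * q)) →+ B)
      (ψ' : Additive (Gamma0 (N * q)) →+ B)) :
    IsTr N ℓ (bOf B h1 φ' : Additive (Gamma0 N) →+ B) (bOf B h1 ψ' : Additive (Gamma0 N) →+ B) := by
  have hℓN : ¬ ℓ ∣ N := fun h => hℓNq (Dvd.dvd.mul_right h q)
  have hℓq : ¬ ℓ ∣ q := fun h => hℓNq (Dvd.dvd.mul_left h N)
  have h0 : ℓ ≠ 0 := NeZero.ne ℓ
  have hcop : Nat.Coprime N q := ((Nat.Prime.coprime_iff_not_dvd hq).mpr hqN).symm
  refine bOf_comm_aux hℓ hℓN hℓNq h1 1 (fun η => by rw [one_mul, mul_one]; rfl)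
    (fun y => ⟨1, y, by rw [map_one, mul_one, one_mul, one_mul]⟩) ?_ φ' ψ' hT
  intro y y' γ a h
  rw [mul_one, mul_one] at h
  have hM := ((intVal_heckeRep h0 y).mul (intVal_emb γ)).inj
    ((intVal_emb a).mul (intVal_heckeRep h0 y')) h
  have e10 := congrFun (congrFun hM 1) 0
  simp only [Matrix.mul_apply, Fin.sum_univ_two, hkM_10, zero_mul, mul_zero, zero_add,
    add_zero] at e10
  have hd : (q : ℤ) ∣ hkM ℓ y 1 1 * (γ : SL(2, ℤ)).val 1 0 := by
    rw [e10]; exact Dvd.dvd.mul_right (q_dvd_of_Gamma0 a) _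
  have hd2 := (coprime_q_of_dvd_l hq hℓ hℓq (hkM_11_dvd ℓ y)).dvd_of_dvd_mul_left hd
  obtain ⟨a', ha'⟩ := exists_incl_eq hcop γ hd2
  exact ⟨a', ha'.symm⟩

/-- **`b_adD` commutes with `T_ℓ`** -/
theorem bOf_adD_comm (hq : q.Prime) (hℓ : ℓ.Prime) (hℓNq : ¬ ℓ ∣ N * q)
    (h2 : IsDeg (adD N q)) (φ' ψ' : EP (N * q) B)
    (hT : IsTr (N * q) ℓ (φ' : Additive (Gamma0 (N * q)) →+ B)
      (ψ' : Additive (Gamma0 (N * q)) →+ B)) :
    IsTr N ℓ (bOf B h2 φ' : Additive (Gamma0 N) →+ B) (bOf B h2 ψ' : Additive (Gamma0 N) →+ B) := by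
  have hℓN : ¬ ℓ ∣ N := fun h => hℓNq (Dvd.dvd.mul_right h q)
  have hℓq : ¬ ℓ ∣ q := fun h => hℓNq (Dvd.dvd.mul_left h N)
  have h0 : ℓ ≠ 0 := NeZero.ne ℓ
  have hq0 : q ≠ 0 := NeZero.ne q
  refine bOf_comm_aux hℓ hℓN hℓNq h2 (heckeRep q ((0 : ZMod q) : OnePoint (ZMod q)))
    (fun η => eps_mul_emb N q η) ?_ ?_ φ' ψ' hT
  · intro y
    induction y using OnePoint.rec with
    | infty =>
      refine ⟨1, OnePoint.infty, ?_⟩
      rw [map_one, mul_one]
      refine ((intVal_heckeRep_infty h0).mul (intVal_heckeRep_coe hq0 0)).ext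
        ((intVal_heckeRep_coe hq0 0).mul (intVal_heckeRep_infty h0)) ?_
      ext a b
      fin_cases a <;> fin_cases b <;> simp [Matrix.mul_apply, Fin.sum_univ_two]
    | coe j =>
      obtain ⟨e, he⟩ : (ℓ : ℤ) ∣ (q : ℤ) * j.val - ((q : ZMod ℓ) * j).val := by
        rw [← ZMod.intCast_zmod_eq_zero_iff_dvd]
        push_cast
        rw [ZMod.natCast_zmod_val, ZMod.natCast_zmod_val, sub_self]
      refine ⟨tG N e, (((q : ZMod ℓ) * j : ZMod ℓ) : OnePoint (ZMod ℓ)), ?_⟩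
      refine ((intVal_heckeRep_coe h0 j).mul (intVal_heckeRep_coe hq0 0)).ext
        (((intVal_heckeRep_coe hq0 0).mul (intVal_emb _)).mul (intVal_heckeRep_coe h0 _)) ?_
      simp only [tG, lvG_val]
      ext a b
      fin_cases a <;> fin_cases b <;>
        simp [Matrix.mul_apply, Fin.sum_univ_two, -ZMod.natCast_val]
      · linear_combination he
      · ring
  · intro y y' γ a h
    have hM := (((intVal_heckeRep h0 y).mul (intVal_heckeRep_coe hq0 0)).mul (intVal_emb γ)).inj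
      ((intVal_emb a).mul ((intVal_heckeRep h0 y').mul (intVal_heckeRep_coe hq0 0))) h
    have e01 := congrFun (congrFun hM 0) 1
    simp [Matrix.mul_apply, Fin.sum_univ_two] at e01
    have hd : (q : ℤ) ∣ hkM ℓ y 0 0 * (γ : SL(2, ℤ)).val 0 1 := by
      refine ⟨(a : SL(2, ℤ)).val 0 0 * hkM ℓ y' 0 1 + (a : SL(2, ℤ)).val 0 1 * hkM ℓ y' 1 1 -
        hkM ℓ y 0 1 * (γ : SL(2, ℤ)).val 1 1, ?_⟩
      linear_combination e01
    have hd2 := (coprime_q_of_dvd_l hq hℓ hℓq (hkM_00_dvd ℓ y)).dvd_of_dvd_mul_left hd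
    obtain ⟨a', ha'⟩ := exists_adD_eq (q := q) γ hd2
    exact ⟨a', ha'.symm⟩

/-- **`b` commutes with `T_ℓ`** -/
theorem bMap_comm (hq : q.Prime) (hqN : ¬ q ∣ N) (hℓ : ℓ.Prime) (hℓNq : ¬ ℓ ∣ N * q)
    (h1 : IsDeg (incl N q)) (h2 : IsDeg (adD N q)) (φ' ψ' : EP (N * q) B)
    (hT : IsTr (N * q) ℓ (φ' : Additive (Gamma0 (N * q)) →+ B)
      (ψ' : Additive (Gamma0 (N * q)) →+ B)) :
    IsTr N ℓ ((bMap B h1 h2 φ').1 : Additive (Gamma0 N) →+ B)
        ((bMap B h1 h2 ψ').1 : Additive (Gamma0 N) →+ B) ∧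
      IsTr N ℓ ((bMap B h1 h2 φ').2 : Additive (Gamma0 N) →+ B)
        ((bMap B h1 h2 ψ').2 : Additive (Gamma0 N) →+ B) :=
  ⟨bOf_incl_comm hq hqN hℓ hℓNq h1 φ' ψ' hT, bOf_adD_comm hq hℓ hℓNq h2 φ' ψ' hT⟩

end Inst

end Fermat.Agent.S41Lib
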